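import Fermat.Agent.TwoAdic.Geometry.Bridge.Pullback
import Fermat.Agent.EigenSystems.Basic
import Fermat.Agent.TwoAdic.Modules.AtkinLevel

/-!
# Classes of torsion points

The class in `H¹(Γ₀(N), A)` of an `n`-torsion point of `J₀(N)` (monodromy, twisted by `W_N`), and
its compatibility with degeneracy maps, Atkin–Lehner operators and Hecke operators.
-/

set_option autoImplicit false

noncomputable section

open Matrix.SpecialLinearGroup CongruenceSubgroup
open scoped MatrixGroups
open AlgebraicCurve ModularCurve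
open scoped Fermat.Agent.TwoAdic.Geometry

universe uO uA

namespace Fermat.Agent.TwoAdic.Bridge

open HeckeJ0 HeckeModule EigenSystems

local notation "ℚbar" => AlgebraicClosure ℚ

variable {O : Type uO} [CommRing O] {A : Type uA} [AddCommGroup A] [Module O A]
  {N : ℕ} [NeZero N] {n : ℕ} [NeZero n]

omit [NeZero N] in
/-- The trivial character gives trivial coefficients. -/
theorem levelChar_one_rep {K : ℕ} (hK : K ∣ N) (u : (ZMod N)ˣ) :
    scalarRep (levelChar hK (1 : (ZMod K)ˣ →* O)) A u = 1 :=
  LinearMap.ext fun a => by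
    rw [scalarRep_apply, MonoidHom.comp_apply, MonoidHom.one_apply, one_smul]
    rfl

variable {ρ : Representation O (ZMod N)ˣ A} (hρ : ∀ u, ρ u = 1)

omit [NeZero N] in
/-- A good homomorphism as a cocycle. -/
def goodCocycle (ψ : Additive (Gamma0 N) →+ A) (hψ : IsGoodHom N ψ) : Cocycle ρ :=
  ⟨fun γ => ψ (Additive.ofMul γ), fun γ δ => by
    show ψ (Additive.ofMul (γ * δ)) = _
    rw [ofMul_mul, map_add, gammaRep_apply, hρ, Module.End.one_apply],
   fun k hk => by
    rw [Set.mem_singleton_iff] at hk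
    subst hk
    refine hψ _ ?_
    show ((negOne N : SL(2, ℤ)) : Matrix (Fin 2) (Fin 2) ℤ).trace ^ 2 ≤ 4
    simp [negOne]⟩

/-- The twisted monodromy of a torsion point, with values in `A`. -/
def torsHom (ι : ZMod n →+ A) (x : Pic0.torsion ℚbar (modularFunctionFieldBar N) n) :
    Additive (Gamma0 N) →+ A :=
  ι.comp (frickeTwist (J0Torsion.torsionEquiv N n x : Additive (Gamma0 N) →+ ZMod n))

theorem torsHom_apply (ι : ZMod n →+ A) (x : Pic0.torsion ℚbar (modularFunctionFieldBar N) n)
    (γ : Gamma0 N) : torsHom ι x (Additive.ofMul γ) =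
      ι ((J0Torsion.torsionEquiv N n x : Additive (Gamma0 N) →+ ZMod n)
        (Additive.ofMul (frickeConj γ))) := rfl

theorem isGoodHom_torsHom (ι : ZMod n →+ A)
    (x : Pic0.torsion ℚbar (modularFunctionFieldBar N) n) : IsGoodHom N (torsHom ι x) :=
  fun g hg => by
    show ι _ = 0
    rw [isGoodHom_frickeTwist (J0Torsion.torsionEquiv N n x).2 g hg, map_zero]

variable (ι : ZMod n →+ A)

/-- The cocycle of a torsion point. -/
def torsCocycle : Pic0.torsion ℚbar (modularFunctionFieldBar N) n →+ Cocycle ρ :=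
  AddMonoidHom.mk' (fun x => goodCocycle hρ (torsHom ι x) (isGoodHom_torsHom ι x)) fun x y =>
    Subtype.ext (funext fun γ => by
      show torsHom ι (x + y) _ = torsHom ι x _ + torsHom ι y _
      rw [torsHom_apply, torsHom_apply, torsHom_apply, map_add, AddSubgroup.coe_add,
        AddMonoidHom.add_apply, map_add])

theorem torsCocycle_apply (x : Pic0.torsion ℚbar (modularFunctionFieldBar N) n) (γ : Gamma0 N) :
    (torsCocycle hρ ι x).1 γ = torsHom ι x (Additive.ofMul γ) := rfl

/-- The class of a torsion point. -/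
def torsClass : Pic0.torsion ℚbar (modularFunctionFieldBar N) n →+ Coh1 ρ :=
  (toCoh ρ).toAddMonoidHom.comp (torsCocycle hρ ι)

theorem torsClass_apply (x : Pic0.torsion ℚbar (modularFunctionFieldBar N) n) :
    torsClass hρ ι x = toCoh ρ (torsCocycle hρ ι x) := rfl

/-- An injective coefficient map gives an injective class map. -/
theorem torsClass_injective (hι : Function.Injective ι) :
    Function.Injective (torsClass hρ ι) := by
  refine (injective_iff_map_eq_zero _).mpr fun x hx => ?_
  rw [torsClass_apply, toCoh_eq_zero_iff_of_trivial hρ] at hx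
  refine (J0Torsion.torsionEquiv N n).injective (Subtype.ext (AddMonoidHom.ext fun g => ?_))
  obtain ⟨γ, rfl⟩ := Additive.ofMul.surjective g
  have h : (torsCocycle hρ ι x).1 (frickeConj γ) = 0 := by rw [hx]; rfl
  rw [torsCocycle_apply, torsHom_apply, frickeConj_frickeConj] at h
  rw [map_zero, AddSubgroup.coe_zero, AddMonoidHom.zero_apply]
  exact hι (h.trans (map_zero ι).symm)

section Hecke

/-- The Hecke operator. -/
theorem torsClass_hecke (l : ℕ) [Fact l.Prime] [NeZero l]
    (x y : Pic0.torsion ℚbar (modularFunctionFieldBar N) n)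
    (hy : (y : JZero N) = heckeOperatorAlong ℚbar N l x) :
    torsClass hρ ι y = heckeOp ρ l (torsClass hρ ι x) := by
  rw [torsClass_apply, torsClass_apply, heckeOp_toCoh]
  refine congrArg _ (Subtype.ext (funext fun γ => ?_))
  show ι (frickeTwist _ (Additive.ofMul γ)) = (heckeData ρ l).raw (torsCocycle hρ ι x).1 γ
  rw [monodromy_heckeAlong J0Torsion.jEmb l x.2 hy (isMonodromy_torsionEquiv N n x)
    (isMonodromy_torsionEquiv N n y), cohHecke_apply, map_sum, raw_apply_trivial hρ]
  refine Finset.sum_congr rfl fun i _ => ?_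
  exact congrArg (torsCocycle hρ ι x).1
    ((heckeData ρ l).spec_unique toGL_injective (HeckeJ0.rep_mul i γ)).2.symm

/-- The Hecke operator, indexed by primes. -/
theorem torsClass_heckeBar (l : Nat.Primes) [Fact (l : ℕ).Prime] [NeZero (l : ℕ)]
    (x y : Pic0.torsion ℚbar (modularFunctionFieldBar N) n)
    (hy : (y : JZero N) = heckeOperatorBar N l x) :
    torsClass hρ ι y = heckeOp ρ (l : ℕ) (torsClass hρ ι x) :=
  torsClass_hecke hρ ι (l : ℕ) x y (hy.trans (heckeOperatorBar_apply N l _))

end Hecke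

section Degeneracy

variable {M ℓ : ℕ} [NeZero M] [NeZero ℓ] {σ : Representation O (ZMod M)ˣ A}
  {τ : Representation O (ZMod (M * ℓ))ˣ A} (hσ : ∀ u, σ u = 1) (hτ : ∀ u, τ u = 1)
  (x : Pic0.torsion ℚbar (modularFunctionFieldBar M) n)
  (y : Pic0.torsion ℚbar (modularFunctionFieldBar (M * ℓ)) n)

/-- The inclusion of function fields gives conjugation by `diag(ℓ, 1)`. -/
theorem torsCocycle_resPic (hy : (y : JZero (M * ℓ)) = Geometry.resPic (dvd_mul_right M ℓ) x)
    (γ : Gamma0 (M * ℓ)) :
    (torsCocycle hτ ι y).1 γ = (torsCocycle hσ ι x).1 (degenConj M ℓ γ) := by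
  rw [torsCocycle_apply, torsCocycle_apply, torsHom_apply, torsHom_apply,
    monodromy_resPic J0Torsion.jEmb x.2 (isMonodromy_torsionEquiv M n x)
      (hy ▸ isMonodromy_torsionEquiv (M * ℓ) n y) (frickeConj γ), inclGamma_frickeConj]

/-- The second pullback gives restriction. -/
theorem torsCocycle_pullBeta
    (hy : (y : JZero (M * ℓ)) = Geometry.pullPic (heckeBetaBar ℚbar M ℓ) x)
    (γ : Gamma0 (M * ℓ)) :
    (torsCocycle hτ ι y).1 γ = (torsCocycle hσ ι x).1 (inclGamma M ℓ γ) := by
  rw [torsCocycle_apply, torsCocycle_apply, torsHom_apply, torsHom_apply,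
    monodromy_pullBeta J0Torsion.jEmb x.2 (isMonodromy_torsionEquiv M n x)
      (hy ▸ isMonodromy_torsionEquiv (M * ℓ) n y) (frickeConj γ), degenConj_frickeConj]

omit [NeZero M] [NeZero ℓ] in
/-- On cocycles the degeneracy map of `z ↦ z` is restriction. -/
theorem degenData_one_raw (h : 1 * M ∣ M * ℓ) (c : Gamma0 M → A) (γ : Gamma0 (M * ℓ)) :
    (degenData σ one_ne_zero h).raw c γ = c (inclGamma M ℓ γ) :=
  degenData_raw_apply σ one_ne_zero h c γ (by rw [degenMat_one, one_mul, mul_one]; rfl)

omit [NeZero M] in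
/-- On cocycles the degeneracy map of `z ↦ ℓ z` is conjugation. -/
theorem degenData_self_raw (h : ℓ * M ∣ M * ℓ) (c : Gamma0 M → A) (γ : Gamma0 (M * ℓ)) :
    (degenData σ (NeZero.ne ℓ) h).raw c γ = c (degenConj M ℓ γ) :=
  degenData_raw_apply σ (NeZero.ne ℓ) h c γ (degenConj_spec γ)

variable {K : ℕ} (hK : K ∣ M) (hK' : K ∣ M * ℓ)

/-- The inclusion of function fields, at the level of the character modules. -/
theorem torsClass_resPic_char (h : ℓ * M ∣ M * ℓ)
    (hy : (y : JZero (M * ℓ)) = Geometry.resPic (dvd_mul_right M ℓ) x) :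
    torsClass (levelChar_one_rep (O := O) (A := A) hK') ι y =
      charDegen A hK 1 hK' (NeZero.ne ℓ) h (torsClass (levelChar_one_rep hK) ι x) := by
  rw [torsClass_apply, torsClass_apply]
  refine congrArg (toCoh _) (Subtype.ext (funext fun γ => ?_))
  refine (torsCocycle_resPic ι (levelChar_one_rep hK) (levelChar_one_rep hK') x y hy γ).trans ?_
  exact (degenData_self_raw (σ := scalarRep (levelChar hK (1 : (ZMod K)ˣ →* O)) A) h _ γ).symm

/-- The second pullback, at the level of the character modules. -/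
theorem torsClass_pullBeta_char (h : 1 * M ∣ M * ℓ)
    (hy : (y : JZero (M * ℓ)) = Geometry.pullPic (heckeBetaBar ℚbar M ℓ) x) :
    torsClass (levelChar_one_rep (O := O) (A := A) hK') ι y =
      charDegen A hK 1 hK' one_ne_zero h (torsClass (levelChar_one_rep hK) ι x) := by
  rw [torsClass_apply, torsClass_apply]
  refine congrArg (toCoh _) (Subtype.ext (funext fun γ => ?_))
  refine (torsCocycle_pullBeta ι (levelChar_one_rep hK) (levelChar_one_rep hK') x y hy γ).trans ?_
  exact (degenData_one_raw (σ := scalarRep (levelChar hK (1 : (ZMod K)ˣ →* O)) A) h _ γ).symm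

end Degeneracy

section AtkinLehner

variable {M q : ℕ} [NeZero M] [NeZero q] {W : Finset ℕ} (hq : q.Prime) (hqM : ¬ q ∣ M)
  (hW : IsALPrimes (M * q) W) (he : q ∈ W) {K : ℕ} (hK : K ∣ M * q) (heK : q.Coprime K)

/-- The Atkin–Lehner involution is the Atkin–Lehner operator. -/
theorem torsClass_alPic (x y : Pic0.torsion ℚbar (modularFunctionFieldBar (M * q)) n)
    (hy : (y : JZero (M * q)) = Geometry.alPic hq hqM x) :
    torsClass (levelChar_one_rep (O := O) (A := A) hK) ι y =
      alOp A hW he hK 1 heK 1 (torsClass (levelChar_one_rep hK) ι x) := by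
  rw [torsClass_apply, torsClass_apply, alOp_toCoh]
  refine congrArg (toCoh _) (Subtype.ext (funext fun γ => ?_))
  refine Eq.trans ?_ (alData_raw hW he hK 1 heK 1 _ γ).symm
  rw [one_smul, torsCocycle_apply]
  show torsHom ι y (Additive.ofMul γ) = torsHom ι x (Additive.ofMul (alConj hW he γ))
  rw [torsHom_apply, monodromy_alPic J0Torsion.jEmb hq hqM hW he x.2
    (isMonodromy_torsionEquiv (M * q) n x) (hy ▸ isMonodromy_torsionEquiv (M * q) n y)
    (frickeConj γ)]
  obtain ⟨g₀, hg₀⟩ := exists_alConj_frickeConj hW he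
  rw [hg₀, ← torsHom_apply]
  simp only [ofMul_mul, ofMul_inv, map_add, map_neg]
  abel

end AtkinLehner

end Fermat.Agent.TwoAdic.Bridge
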