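import Fermat.Agent.TwoAdic.Geometry.Bridge.Setup
import Fermat.Agent.EigenRep.TorsionAction
import Fermat.Agent.EigenRep.Inputs
import Fermat.Agent.EigenRep.Smooth

/-!
# The Eichler–Shimura relation on the modules of a setup

The Galois action on the modules of a setup is smooth and satisfies the Eichler–Shimura relation:
every element agrees, on a given number field and on the module, with a Frobenius at a good prime.
-/

set_option autoImplicit false

noncomputable section

open CongruenceSubgroup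
open scoped MatrixGroups
open AlgebraicCurve ModularCurve
open scoped Fermat.Agent.TwoAdic.Geometry

universe uO uA

namespace Fermat.Agent.TwoAdic.Bridge

open HeckeJ0 HeckeModule EigenSystems

local notation "ℚbar" => AlgebraicClosure ℚ

/-- A number field whose absolute Galois group fixes the `n`-torsion. -/
theorem exists_level_torsion (N n : ℕ) [NeZero N] [NeZero n] :
    ∃ L : IntermediateField ℚ ℚbar, FiniteDimensional ℚ L ∧
      ∀ σ : ℚbar ≃ₐ[ℚ] ℚbar, (∀ a ∈ L, σ a = a) →
        ∀ x : Pic0.torsion ℚbar (modularFunctionFieldBar N) n, galTors N n σ x = x := by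
  let pts : (Fin (rk N) → ZMod n) → JZero N := fun v =>
    ((torsCoords (N := N) (n := n)).symm v : JZero N)
  choose L hL hfix using fun v => EigenRep.jZeroSmooth N (pts v)
  have := hL
  refine ⟨⨆ v, L v, IntermediateField.finiteDimensional_iSup_of_finite, fun σ hσ x => ?_⟩
  refine Subtype.ext ?_
  rw [coe_galTors]
  have h := hfix (torsCoords x) σ fun a ha => hσ a (le_iSup L (torsCoords x) ha)
  rwa [show pts (torsCoords x) = (x : JZero N) by simp [pts]] at h

section Classes

variable {O : Type uO} [CommRing O] {A : Type uA} [AddCommGroup A] [Module O A]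
  {N : ℕ} [NeZero N] {n : ℕ} [NeZero n] {ρ : Representation O (ZMod N)ˣ A}
  (hρ : ∀ u, ρ u = 1) (m : Submonoid (HeckePoly O))

/-- Classes are additive in the point. -/
theorem torsLoc_add (ι : ZMod n →+ A) (x y : Pic0.torsion ℚbar (modularFunctionFieldBar N) n)
    (s : m) : torsLoc hρ m ι (x + y) s = torsLoc hρ m ι x s + torsLoc hρ m ι y s := by
  rw [torsLoc, torsLoc, torsLoc, map_add, LocalizedModule.mk_add_mk, ← smul_add,
    ← LocalizedModule.mk_cancel_common_left s s]

/-- Classes are additive in the point. -/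
theorem torsLoc_nsmul (k : ℕ) (ι : ZMod n →+ A)
    (x : Pic0.torsion ℚbar (modularFunctionFieldBar N) n) (s : m) :
    torsLoc hρ m ι (k • x) s = k • torsLoc hρ m ι x s := by
  induction k with
  | zero => rw [zero_smul, zero_smul, torsLoc, map_zero, LocalizedModule.zero_mk]
  | succ k ih => rw [succ_nsmul, succ_nsmul, torsLoc_add, ih]

/-- The Hecke operators on classes. -/
theorem awayX_smul_torsLoc {S : Set ℕ} {l : ℕ} (hl : l.Prime) (hS : l ∉ S) (ι : ZMod n →+ A)
    (x : Pic0.torsion ℚbar (modularFunctionFieldBar N) n) (s : m) :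
    awayIncl O S (awayX O hl hS) • torsLoc hρ m ι x s =
      torsLoc hρ m ι (heckeTors N n ⟨l, hl⟩ x) s := by
  have : Fact (((⟨l, hl⟩ : Nat.Primes) : ℕ)).Prime := ⟨hl⟩
  have : NeZero (((⟨l, hl⟩ : Nat.Primes) : ℕ)) := ⟨hl.ne_zero⟩
  rw [torsLoc, torsLoc, awayX, awayIncl_X, LocalizedModule.smul'_mk,
    torsClass_heckeBar hρ ι ⟨l, hl⟩ x _ (coe_heckeTors _ x)]
  exact congrArg (LocalizedModule.mk · s) (X_smul ρ l _)

end Classes

section Setup

attribute [local instance] ALSetup.isPrime

variable {O : Type} [CommRing O] [IsLocalRing O] (T : ALSetup O) {A : Type uA} [AddCommGroup A]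
  [Module O A] (hχ : T.χ = 1) {V : Finset ℕ} (hV : V ⊆ T.W) [NeZero (T.level V)]
  {p k : ℕ} [Fact p.Prime] (hA : ∀ a : A, p ^ k • a = 0)

/-- The Eichler–Shimura relation on `T.H V A`. -/
theorem setupGal_frobenius (hes : EigenRep.EichlerShimuraRelations (T.level V) p) {l : ℕ}
    (hl : l.Prime) (hS : l ∉ T.S) (hlN : ¬ l ∣ T.level V * p) {B : ValuationSubring ℚbar}
    (hB : B.LiesOverPrime l) {σ : ℚbar ≃ₐ[ℚ] ℚbar} (hσ : B.IsFrobeniusAt σ l) (z : T.H V A) :
    setupGal T hχ hV hA σ (setupGal T hχ hV hA σ z) -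
      awayIncl O T.S (awayX O hl hS) • setupGal T hχ hV hA σ z + l • z = 0 := by
  let g := setupGal T hχ hV hA σ
  let H : T.H V A →+ T.H V A := AddMonoidHom.mk'
    (fun z => g (g z) - awayIncl O T.S (awayX O hl hS) • g z + l • z) fun y z => by
      simp only [map_add, smul_add, nsmul_add]; abel
  refine (DFunLike.congr_fun (setup_ext T hχ hV hA (F := H) (G := 0) fun ι x s => ?_) z : _)
  show g (g _) - awayIncl O T.S (awayX O hl hS) • g _ + l • _ = 0
  simp only [g, setupGal_setupClass]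
  have hcls : ∀ y, setupClass T hχ ι y s =
      torsLoc (trivial_rep (T.dvd_level V) hχ) (awayMonoid T.m) ι y s := fun y => by
    unfold setupClass; rfl
  rw [hcls, hcls, hcls, awayX_smul_torsLoc, ← torsLoc_nsmul]
  have hrel : galTors (T.level V) (p ^ k) σ (galTors (T.level V) (p ^ k) σ x) + l • x =
      heckeTors (T.level V) (p ^ k) ⟨l, hl⟩ (galTors (T.level V) (p ^ k) σ x) := by
    refine Subtype.ext ?_
    refine Eq.trans ?_ ((coe_heckeTors (n := p ^ k) (⟨l, hl⟩ : Nat.Primes)
      (galTors (T.level V) (p ^ k) σ x)).trans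
        (congrArg (heckeOperatorBar (T.level V) ⟨l, hl⟩) (coe_galTors σ x))).symm
    rw [AddSubgroup.coe_add, AddSubgroupClass.coe_nsmul, coe_galTors, coe_galTors,
      ← sub_eq_zero, add_sub_right_comm]
    exact hes.frobenius l hl hlN B hB σ hσ (x : JZero (T.level V))
      (EigenRep.exists_pow_nsmul_eq_zero x)
  rw [sub_add_eq_add_sub, sub_eq_zero, ← torsLoc_add, hrel]

/-- Elements fixing a number field act trivially. -/
theorem exists_level_setupGal :
    ∃ L : IntermediateField ℚ ℚbar, FiniteDimensional ℚ L ∧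
      ∀ σ : ℚbar ≃ₐ[ℚ] ℚbar, (∀ a ∈ L, σ a = a) → setupGal T hχ hV hA σ = 1 := by
  obtain ⟨L, hL, hfix⟩ := exists_level_torsion (T.level V) (p ^ k)
  refine ⟨L, hL, fun σ hσ => LinearMap.toAddMonoidHom_injective
    (setup_ext T hχ hV hA fun ι x s => ?_)⟩
  show setupGal T hχ hV hA σ _ = _
  rw [setupGal_setupClass, hfix σ hσ]
  rfl

/-- **Chebotarev on the module.** Every element acts as a Frobenius at a good prime agreeing with
it on a given number field; so it satisfies a quadratic relation. -/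
theorem exists_relation (hes : EigenRep.EichlerShimuraRelations (T.level V) p) (hS : T.S.Finite)
    (L : IntermediateField ℚ ℚbar) [FiniteDimensional ℚ L] (σ : ℚbar ≃ₐ[ℚ] ℚbar) :
    ∃ (l : ℕ) (hl : l.Prime) (hlS : l ∉ T.S), ¬ l ∣ T.level V * p ∧
      (∃ B : ValuationSubring ℚbar, B.LiesOverPrime l ∧ ∃ φ : ℚbar ≃ₐ[ℚ] ℚbar,
        B.IsFrobeniusAt φ l ∧ ∀ a ∈ L, φ a = σ a) ∧
      ∀ z : T.H V A, setupGal T hχ hV hA σ (setupGal T hχ hV hA σ z) -
        awayIncl O T.S (awayX O hl hlS) • setupGal T hχ hV hA σ z + l • z = 0 := by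
  obtain ⟨L₀, hL₀, hfix⟩ := exists_level_setupGal T hχ hV hA
  have := hL₀
  obtain ⟨l, hl, hlbad, B, hB, φ, hφ, hφσ⟩ := EigenRep.frobeniusDense (L ⊔ L₀) inferInstance σ
    (hS.toFinset ∪ (T.level V * p).divisors)
  rw [Finset.mem_union, not_or, Set.Finite.mem_toFinset, Nat.mem_divisors, not_and_or] at hlbad
  have hne : T.level V * p ≠ 0 := mul_ne_zero (NeZero.ne _) (Fact.out : p.Prime).ne_zero
  have hlN : ¬ l ∣ T.level V * p := hlbad.2.resolve_right (not_not.mpr hne)
  have hact : setupGal T hχ hV hA φ = setupGal T hχ hV hA σ := by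
    have h1 : setupGal T hχ hV hA (σ⁻¹ * φ) = 1 := hfix _ fun a ha => by
      rw [AlgEquiv.mul_apply, hφσ a ((le_sup_right : L₀ ≤ L ⊔ L₀) ha)]
      exact σ.symm_apply_apply a
    calc setupGal T hχ hV hA φ
        = setupGal T hχ hV hA (σ * (σ⁻¹ * φ)) := by rw [mul_inv_cancel_left]
      _ = setupGal T hχ hV hA σ := by rw [map_mul, h1, mul_one]
  refine ⟨l, hl, hlbad.1, hlN,
    ⟨B, hB, φ, hφ, fun a ha => hφσ a ((le_sup_left : L ≤ L ⊔ L₀) ha)⟩, fun z => ?_⟩
  rw [← hact]
  exact setupGal_frobenius T hχ hV hA hes hl hlbad.1 hlN hB hφ z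

end Setup

end Fermat.Agent.TwoAdic.Bridge
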