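import Fermat.Agent.TwoAdic.Geometry.Bridge.Class
import Fermat.Agent.Engine.TRep.Boundary

/-!
# Classes of torsion points and the lattice

The classes of torsion points and the lattice: coordinates, injectivity, and the fact that the
Eisenstein elements at primes `r ≡ 1 (mod N)` map every class to the lattice.
-/

set_option autoImplicit false

noncomputable section

open Matrix.SpecialLinearGroup CongruenceSubgroup
open scoped MatrixGroups
open AlgebraicCurve ModularCurve
open scoped Fermat.Agent.TwoAdic.Geometry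

universe uO uA

namespace Fermat.Agent.TwoAdic.Bridge

open HeckeJ0 HeckeModule EigenSystems ModularCurve.Period

local notation "ℚbar" => AlgebraicClosure ℚ

variable {O : Type uO} [CommRing O] {A : Type uA} [AddCommGroup A] [Module O A]
  {N : ℕ} [NeZero N] {ρ : Representation O (ZMod N)ˣ A} (hρ : ∀ u, ρ u = 1)

/-- The cocycle with given coordinates on the lattice. -/
def latCocycle : (Fin (rk N) → A) →ₗ[O] Cocycle ρ where
  toFun a := goodCocycle hρ (ofCoords N a) (isGoodHom_ofCoords N a)
  map_add' a b := Subtype.ext (funext fun γ => by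
    show ofCoords N (a + b) _ = ofCoords N a _ + ofCoords N b _
    simp [ofCoords_apply, smul_add, Finset.sum_add_distrib])
  map_smul' o a := Subtype.ext (funext fun γ => by
    show ofCoords N (o • a) _ = o • ofCoords N a _
    simp only [ofCoords_apply, Pi.smul_apply, Finset.smul_sum]
    exact Finset.sum_congr rfl fun i _ => smul_comm _ _ _)

/-- The class with given coordinates on the lattice. -/
def latClass : (Fin (rk N) → A) →ₗ[O] Coh1 ρ := (toCoh ρ).comp (latCocycle hρ)

theorem latClass_apply (a : Fin (rk N) → A) : latClass hρ a = toCoh ρ (latCocycle hρ a) := rfl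

theorem latClass_injective : Function.Injective (latClass hρ) := by
  refine (injective_iff_map_eq_zero _).mpr fun a ha => ?_
  rw [latClass_apply, toCoh_eq_zero_iff_of_trivial hρ] at ha
  rw [← coords_ofCoords N a]
  refine funext fun i => ?_
  rw [coords_apply, Pi.zero_apply]
  exact congrArg (fun c : Cocycle ρ => c.1 (cyc N i)) ha

/-- The class with coordinates `a` is the sum of the classes on the axes. -/
theorem latClass_eq_sum (a : Fin (rk N) → A) :
    latClass hρ a = ∑ k, latClass hρ (Pi.single k (a k)) := by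
  rw [← map_sum, Finset.univ_sum_single]

section Torsion

variable {n : ℕ} [NeZero n]

/-- Coordinates of torsion points. -/
def torsCoords : Pic0.torsion ℚbar (modularFunctionFieldBar N) n ≃+ (Fin (rk N) → ZMod n) :=
  (J0Torsion.torsionEquiv N n).trans (twCoordsEquiv n)

theorem torsHom_eq_ofCoords (ι : ZMod n →+ A)
    (x : Pic0.torsion ℚbar (modularFunctionFieldBar N) n) :
    torsHom ι x = ofCoords N fun i => ι (torsCoords x i) := by
  rw [← map_ofCoords]
  exact congrArg ι.comp (ofCoords_coords_zmod N (parabolicFull N) n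
    (isGoodHom_frickeTwist (J0Torsion.torsionEquiv N n x).2)).symm

/-- The class of a torsion point in coordinates. -/
theorem torsClass_eq_latClass (ι : ZMod n →+ A)
    (x : Pic0.torsion ℚbar (modularFunctionFieldBar N) n) :
    torsClass hρ ι x = latClass hρ fun i => ι (torsCoords x i) := by
  rw [torsClass_apply, latClass_apply]
  refine congrArg _ (Subtype.ext (funext fun γ => ?_))
  rw [torsCocycle_apply, torsHom_eq_ofCoords]
  rfl

/-- The homomorphism `ZMod n →+ A` with value `a` at `1`. -/
def toElem (a : A) (ha : n • a = 0) : ZMod n →+ A :=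
  ZMod.lift n ⟨zmultiplesHom A a, by simpa using ha⟩

omit [NeZero n] in
theorem toElem_one (a : A) (ha : n • a = 0) : toElem a ha 1 = a := by
  rw [toElem, ← Nat.cast_one, ← Int.cast_natCast (R := ZMod n), ZMod.lift_coe]
  simp

/-- Classes on the axes come from torsion points. -/
theorem exists_torsClass_single (k : Fin (rk N)) (a : A) (ha : n • a = 0) :
    ∃ (ι : ZMod n →+ A) (x : Pic0.torsion ℚbar (modularFunctionFieldBar N) n),
      latClass hρ (Pi.single k a) = torsClass hρ ι x := by
  refine ⟨toElem a ha, (torsCoords (N := N)).symm (Pi.single k 1), ?_⟩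
  rw [torsClass_eq_latClass, AddEquiv.apply_symm_apply]
  refine congrArg _ (funext fun i => ?_)
  rcases eq_or_ne i k with rfl | hi
  · rw [Pi.single_eq_same, Pi.single_eq_same, toElem_one]
  · rw [Pi.single_eq_of_ne hi, Pi.single_eq_of_ne hi, map_zero]

end Torsion

variable {r : ℕ} [hr : Fact r.Prime] [NeZero r]

/-- **Non-Eisenstein classes live on the lattice.** -/
theorem exists_latClass_eisen (hN : Liftable ℤ N) (hr1 : (r : ZMod N) = 1) (u : Coh1 ρ) :
    ∃ a : Fin (rk N) → A, latClass hρ a = eisen O r • u := by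
  obtain ⟨c, rfl⟩ := toCoh_surjective ρ u
  rw [eisen_smul, heckeOp_toCoh, ← map_smul, ← map_sub]
  set d := (heckeData ρ r).onCocycles toGL_injective c - ((r : O) + 1) • c with hd
  let ψ : Additive (Gamma0 N) →+ A := homOf hρ d
  -- lift to a free abelian group
  let f : (A →₀ ℤ) →ₗ[ℤ] A := Finsupp.linearCombination ℤ id
  have hfs : Function.Surjective f := fun a => ⟨Finsupp.single a 1, by simp [f]⟩
  let c₁ : Cocycle (trivRep N ℤ A) := mapCocycle hρ (fun _ => rfl) (AddMonoidHom.id A) c
  obtain ⟨c₂, hc₂⟩ := exists_cocycle_lift (ρA := trivRep N ℤ (A →₀ ℤ))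
    (ρB := trivRep N ℤ A) f (fun u a => rfl) hfs rfl hN c₁
  let d₂ : Cocycle (trivRep N ℤ (A →₀ ℤ)) :=
    (heckeData (trivRep N ℤ (A →₀ ℤ)) r).onCocycles toGL_injective c₂ - ((r : ℤ) + 1) • c₂
  let ψ₂ : Additive (Gamma0 N) →+ (A →₀ ℤ) := homOf (fun _ => rfl) d₂
  have hcomm : f.toAddMonoidHom.comp ψ₂ = ψ := by
    refine AddMonoidHom.ext fun g => ?_
    obtain ⟨g, rfl⟩ := Additive.ofMul.surjective g
    show f ((heckeData _ r).raw c₂.1 g - ((r : ℤ) + 1) • c₂.1 g) =
      (heckeData _ r).raw c.1 g - ((r : O) + 1) • c.1 g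
    rw [map_sub, map_smul, raw_apply_trivial (fun _ => rfl), raw_apply_trivial hρ, map_sum, hc₂]
    congr 1
    · refine Finset.sum_congr rfl fun x _ => ?_
      rw [hc₂]
      exact congrArg c.1 ((heckeData ρ r).spec_unique toGL_injective
        ((heckeData (trivRep N ℤ (A →₀ ℤ)) r).mul_spec x g)).2.symm
    · show ((r : ℤ) + 1) • c.1 g = _
      rw [← Int.cast_smul_eq_zsmul O, Int.cast_add, Int.cast_natCast, Int.cast_one]
  have hpar : IsParabolicHom (Gamma0 N) ψ₂ := by
    refine isParabolicHom_homOf (fun _ => rfl) (c := d₂) fun u v huv => ?_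
    have h : (r : ℤ) • d₂.1 (parElt N u v 1) = 0 := boundary_hecke hr1 c₂ huv
    exact (smul_eq_zero.mp h).resolve_left (by exact_mod_cast hr.out.ne_zero)
  have hgood : IsGoodHom N ψ₂ := fun g hg => Engine.TRep.apply_eq_zero_of_trace_sq_le hpar hg
  have hψ : ofCoords N (coords N ψ) = ψ :=
    calc ofCoords N (coords N ψ)
        = f.toAddMonoidHom.comp (ofCoords N (coords N ψ₂)) := by
          rw [map_ofCoords, ← hcomm]; rfl
      _ = ψ := by rw [Engine.TRep.ofCoords_coords_torsionFree hgood, hcomm]
  refine ⟨coords N ψ, ?_⟩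
  rw [latClass_apply]
  refine congrArg _ (Subtype.ext (funext fun γ => ?_))
  exact DFunLike.congr_fun hψ (Additive.ofMul γ)

end Fermat.Agent.TwoAdic.Bridge
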