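import Fermat.Agent.HeckeJ0.TorsionModel
import Fermat.Agent.HeckeModule.Trace
import Fermat.Agent.TwoAdic.Modules.AtkinOp
import Fermat.Agent.TwoAdic.Geometry.Instances

/-!
# Monodromy along maps of function fields

How the monodromy of torsion classes moves along maps of function fields that act on the upper
half plane by a matrix, and the conjugation identities behind the twist by `W_N`.
-/

set_option autoImplicit false

noncomputable section

open Matrix.SpecialLinearGroup CongruenceSubgroup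
open scoped MatrixGroups
open AlgebraicCurve ModularCurve
open scoped Fermat.Agent.TwoAdic.Geometry
open Fermat.Agent.X0Analytic

namespace Fermat.Agent.TwoAdic.Bridge

open HeckeJ0 HeckeModule

local notation "ℚbar" => AlgebraicClosure ℚ

variable {N N' : ℕ} [NeZero N] [NeZero N'] (φ : ℚbar →+* ℂ) {n : ℕ} [NeZero n]

omit [NeZero n] in
/-- A root moved by a matrix has the conjugated multiplier. -/
theorem char_eq_of_act (hn : n ≠ 0) {g : GL (Fin 2) ℝ} (hg : 0 < g.det.val)
    (κ : Gamma0 N' → Gamma0 N) (hκ : ∀ γ, g * toGL N' γ = toGL N (κ γ) * g)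
    {f : modularFunctionFieldBar N} {f' : modularFunctionFieldBar N'}
    (hf : toMer (L := ℚbar) (N := N') φ f' = act g (toMer (L := ℚbar) (N := N) φ f))
    {χ : Gamma0 N →* ℂ} {χ' : Gamma0 N' →* ℂ}
    (h : J0Torsion.HasChar N n (coeffMap φ (f : LaurentSeries ℚbar)) χ)
    (h' : J0Torsion.HasChar N' n (coeffMap φ (f' : LaurentSeries ℚbar)) χ') (γ : Gamma0 N') :
    χ' γ = χ (κ γ) := by
  obtain ⟨r, hr0, hr, hract⟩ := exists_root φ hn h
  obtain ⟨r', hr'0, hr', hr'act⟩ := exists_root φ hn h'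
  have hs0 : act g r ≠ 0 := (map_ne_zero _).mpr hr0
  have hpow : r' ^ n = act g r ^ n := by rw [hr', hf, ← map_pow, hr]
  obtain ⟨c, hc⟩ := exists_mul_of_pow_eq hn hs0 hpow
  have hsγ : act (mapGL ℝ (γ : SL(2, ℤ))) (act g r) = constMer (χ (κ γ)) * act g r := by
    rw [← act_mul hg (det_pos_mapGL _), ← toGL_apply, hκ, act_mul (by rw [toGL_apply]; exact det_pos_mapGL _) hg,
      toGL_apply, hract, map_mul, act_constMer hg]
  have h1 := hr'act γ
  rw [hc, map_mul, act_constMer (det_pos_mapGL _), hsγ] at h1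
  have hc0 : constMer c ≠ 0 := fun h0 => hr'0 (by rw [hc, h0, zero_mul])
  refine constMer.injective (mul_right_cancel₀ (mul_ne_zero hc0 hs0) ?_)
  rw [← h1]
  ring

/-- **Transfer of monodromy.** If `y` has divisors obtained from those of `x` along a map of
function fields acting by `g`, the monodromy of `y` is that of `x` conjugated by `g`. -/
theorem monodromy_transfer {g : GL (Fin 2) ℝ} (hg : 0 < g.det.val)
    (κ : Gamma0 N' → Gamma0 N) (hκ : ∀ γ, g * toGL N' γ = toGL N (κ γ) * g)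
    (Φ : modularFunctionFieldBar N →+* modularFunctionFieldBar N')
    (hΦ : ∀ f, toMer (L := ℚbar) (N := N') φ (Φ f) = act g (toMer (L := ℚbar) (N := N) φ f))
    {x : JZero N} {y : JZero N'} (hx : x ∈ Pic0.torsion ℚbar (modularFunctionFieldBar N) n)
    (hdiv : ∀ (D : Divisor.degZero (K := ℚbar) (F := modularFunctionFieldBar N))
      (f : modularFunctionFieldBar N), Pic0.mk D = x → f ≠ 0 →
      (∀ v, (n : ℤ) * (D : Divisor ℚbar (modularFunctionFieldBar N)) v = v.ord f) →
      ∃ D' : Divisor.degZero (K := ℚbar) (F := modularFunctionFieldBar N'), Pic0.mk D' = y ∧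
        ∀ v, (n : ℤ) * (D' : Divisor ℚbar (modularFunctionFieldBar N')) v = v.ord (Φ f))
    {ψ : Additive (Gamma0 N) →+ ZMod n} {ψ' : Additive (Gamma0 N') →+ ZMod n}
    (h : IsMonodromy φ n x ψ) (h' : IsMonodromy φ n y ψ') (γ : Gamma0 N') :
    ψ' (Additive.ofMul γ) = ψ (Additive.ofMul (κ γ)) := by
  obtain ⟨D, f, hD, hf, hDf⟩ := exists_divisor_function hx
  obtain ⟨D', hD', hD'f⟩ := hdiv D f hD hf hDf
  have hf' : Φ f ≠ 0 := (map_ne_zero Φ).mpr hf
  exact ZMod.injective_stdAddChar (char_eq_of_act φ (NeZero.ne n) hg κ hκ (hΦ f)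
    (h D f hD hf hDf) (h' D' (Φ f) hD' hf' hD'f) γ)

section Conjugation

variable {M ℓ : ℕ} [NeZero M] [NeZero ℓ]

/-- The inclusion of `Γ₀(M ℓ)` in `Γ₀(M)`. -/
def inclGamma (M ℓ : ℕ) (γ : Gamma0 (M * ℓ)) : Gamma0 M :=
  ⟨(γ : SL(2, ℤ)), (mem_Gamma0_iff_dvd _).mpr
    ((Int.natCast_dvd_natCast.mpr (dvd_mul_right M ℓ)).trans ((mem_Gamma0_iff_dvd _).mp γ.2))⟩

omit [NeZero M] in
/-- `z ↦ ℓ z` conjugates `Γ₀(M ℓ)` into `Γ₀(M)`. -/
lemma exists_degenConj (γ : Gamma0 (M * ℓ)) :
    ∃ g : Gamma0 M, degenMat ℓ * toGL (M * ℓ) γ = toGL M g * degenMat ℓ := by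
  obtain ⟨g, hg, -⟩ := exists_conjDegen (N := M) (N' := M * ℓ) (NeZero.ne ℓ)
    (by rw [mul_comm]) γ
  exact ⟨g, hg⟩

/-- Conjugation by `diag(ℓ, 1)`. -/
def degenConj (M ℓ : ℕ) [NeZero ℓ] (γ : Gamma0 (M * ℓ)) : Gamma0 M :=
  (exists_degenConj (M := M) γ).choose

omit [NeZero M] in
/-- The defining property of the conjugate. -/
lemma degenConj_spec (γ : Gamma0 (M * ℓ)) :
    degenMat ℓ * toGL (M * ℓ) γ = toGL M (degenConj M ℓ γ) * degenMat ℓ :=
  (exists_degenConj (M := M) γ).choose_spec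

omit [NeZero M] in
lemma degenConj_unique {γ : Gamma0 (M * ℓ)} {g : Gamma0 M}
    (h : degenMat ℓ * toGL (M * ℓ) γ = toGL M g * degenMat ℓ) : g = degenConj M ℓ γ :=
  toGL_injective (mul_right_cancel (h.symm.trans (degenConj_spec γ)))

lemma degenMat_eq_scaleGL : degenMat ℓ = scaleGL ℓ := by
  refine Units.ext ?_
  rw [val_degenMat (NeZero.ne ℓ)]
  ext i j
  fin_cases i <;> fin_cases j <;> simp [scaleGL]

lemma fricke_mul_degenMat : fricke M * degenMat ℓ = fricke (M * ℓ) := by
  refine Units.ext ?_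
  rw [Units.val_mul, val_degenMat (NeZero.ne ℓ), val_fricke, val_fricke]
  ext i j
  rw [Matrix.mul_apply, Fin.sum_univ_two]
  fin_cases i <;> fin_cases j <;> simp

/-- Restriction after the twist is conjugation by `diag(ℓ, 1)`. -/
lemma inclGamma_frickeConj (γ : Gamma0 (M * ℓ)) :
    inclGamma M ℓ (frickeConj γ) = frickeConj (degenConj M ℓ γ) := by
  refine toGL_injective (mul_right_cancel (b := fricke M * degenMat ℓ) ?_)
  show mapGL ℝ (frickeConj γ : SL(2, ℤ)) * (fricke M * degenMat ℓ) =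
    mapGL ℝ (frickeConj (degenConj M ℓ γ) : SL(2, ℤ)) * (fricke M * degenMat ℓ)
  rw [fricke_mul_degenMat, frickeConj_mul_fricke, ← fricke_mul_degenMat, ← mul_assoc (mapGL ℝ _),
    frickeConj_mul_fricke, mul_assoc, mul_assoc, ← toGL_apply, ← toGL_apply, degenConj_spec]

/-- Conjugation by `diag(ℓ, 1)` after the twist is the inclusion. -/
lemma degenConj_frickeConj (γ : Gamma0 (M * ℓ)) :
    degenConj M ℓ (frickeConj γ) = frickeConj (inclGamma M ℓ γ) := by
  refine (degenConj_unique ?_).symm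
  obtain ⟨c, hc⟩ := dvd_lowerLeft (M * ℓ) γ
  push_cast at hc
  refine Units.ext ?_
  rw [Units.val_mul, Units.val_mul, val_degenMat (NeZero.ne ℓ), toGL_apply, toGL_apply]
  have hdiv : (γ : SL(2, ℤ)) 1 0 / ((M * ℓ : ℕ) : ℤ) = c := by
    rw [hc, Nat.cast_mul, Int.mul_ediv_cancel_left _ (by
      exact_mod_cast mul_ne_zero (NeZero.ne M) (NeZero.ne ℓ))]
  have hdiv' : (γ : SL(2, ℤ)) 1 0 / (M : ℤ) = ℓ * c := by
    rw [hc, mul_assoc, Int.mul_ediv_cancel_left _ (by exact_mod_cast NeZero.ne M)]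
  ext i j
  rw [Matrix.mul_apply, Matrix.mul_apply, Fin.sum_univ_two, Fin.sum_univ_two, val_mapGL_apply,
    val_mapGL_apply, val_mapGL_apply, val_mapGL_apply]
  fin_cases i <;> fin_cases j <;> simp [frickeConj, inclGamma, hdiv'] <;>
    first | ring1 | exact Or.inl (by exact_mod_cast hdiv)

end Conjugation

section AtkinLehner

variable {W : Finset ℕ} (hW : IsALPrimes N W) {e : ℕ} (he : e ∈ W)

omit [NeZero N] in
include hW he in
lemma alMat_det_pos : 0 < (matGL (alMat N e) (alMat_det_ne_zero hW he)).det.val := by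
  rw [Matrix.GeneralLinearGroup.val_det_apply, val_matGL,
    show (alMat N e).map (Int.cast : ℤ → ℝ) = (Int.castRingHom ℝ).mapMatrix (alMat N e) from rfl,
    ← RingHom.map_det, (alMat_mem hW he).1]
  simpa using (hW e he).1.pos

/-- The twist commutes with conjugation by the Atkin–Lehner matrix up to an inner automorphism. -/
lemma exists_alConj_frickeConj : ∃ g₀ : Gamma0 N, ∀ γ,
    alConj hW he (frickeConj γ) = frickeConj (g₀ * alConj hW he γ * g₀⁻¹) := by
  obtain ⟨hd, hx, hw, hz⟩ := alMat_mem hW he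
  have he0 : e ≠ 0 := (hW e he).1.ne_zero
  set A := alMat N e with hA
  -- `A W = W A'`
  obtain ⟨z, hz'⟩ := hz
  let A' : LevelRaising.Mat := LevelRaising.mm (A 1 1) (-z) (-(N : ℤ) * A 0 1) (A 0 0)
  have hA' : A' ∈ alSet N e := by
    refine ⟨?_, ?_, ?_, ?_⟩
    · rw [← hd, Matrix.det_fin_two, Matrix.det_fin_two, hz']
      simp [A', LevelRaising.mm]
      ring
    · simpa [A', LevelRaising.mm] using hw
    · simpa [A', LevelRaising.mm] using hx
    · simp [A', LevelRaising.mm]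
  obtain ⟨g₀, hg₀⟩ := exists_eq_mul_alSet (hW e he).2.1 he0 hA' (alMat_mem hW he)
  refine ⟨g₀, fun γ => ?_⟩
  have hA'0 : A'.det ≠ 0 := by rw [hA'.1]; exact_mod_cast he0
  have h1 : matGL A (alMat_det_ne_zero hW he) * fricke N = fricke N * matGL A' hA'0 := by
    refine Units.ext ?_
    rw [Units.val_mul, Units.val_mul, val_fricke, val_matGL, val_matGL]
    ext i j
    rw [Matrix.mul_apply, Matrix.mul_apply, Fin.sum_univ_two, Fin.sum_univ_two]
    fin_cases i <;> fin_cases j <;> simp [A', LevelRaising.mm, hz', mul_comm]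
  have h2 : matGL A' hA'0 = toGL N g₀ * matGL A (alMat_det_ne_zero hW he) := by
    refine Units.ext ?_
    rw [Units.val_mul, val_matGL, val_matGL, val_toGL, ← Matrix.map_mul_intCast, hg₀]
  have h3 : ∀ γ, matGL A (alMat_det_ne_zero hW he) * toGL N γ
      = toGL N (alConj hW he γ) * matGL A (alMat_det_ne_zero hW he) := fun γ =>
    (matGL_mul_toGL_iff _ _ _ _).mpr (alConj_spec hW he γ)
  refine toGL_injective (mul_right_cancel (b := matGL A (alMat_det_ne_zero hW he) * fricke N) ?_)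
  have hfr : ∀ g : Gamma0 N, toGL N (frickeConj g) * fricke N = fricke N * toGL N g := fun g =>
    frickeConj_mul_fricke g
  calc toGL N (alConj hW he (frickeConj γ)) * (matGL A (alMat_det_ne_zero hW he) * fricke N)
      = fricke N * (toGL N g₀ * (toGL N (alConj hW he γ) * matGL A (alMat_det_ne_zero hW he))) := by
        rw [← mul_assoc, ← h3, mul_assoc, hfr, ← mul_assoc, h1, mul_assoc, h2, mul_assoc, h3]
    _ = toGL N (frickeConj (g₀ * alConj hW he γ * g₀⁻¹))
          * (matGL A (alMat_det_ne_zero hW he) * fricke N) := by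
        rw [h1, h2, ← mul_assoc (toGL N _) (fricke N), hfr, map_mul, map_mul, map_inv, mul_assoc,
          mul_assoc, mul_assoc, inv_mul_cancel_left]

end AtkinLehner

end Fermat.Agent.TwoAdic.Bridge
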