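import Fermat.Agent.TwoAdic.Geometry.Bridge.Monodromy
import Fermat.Agent.SemistableRed.AtkinLehner
import Fermat.Agent.Congruence.Correspondence
import Fermat.Agent.TwoAdic.Geometry.Maps

/-!
# Pullbacks on `J₀` and monodromy

Pullbacks along the degeneracy maps and the Atkin–Lehner automorphism on `J₀`, and their effect on
monodromy.
-/

set_option autoImplicit false

noncomputable section

open Matrix.SpecialLinearGroup CongruenceSubgroup UpperHalfPlane
open scoped MatrixGroups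
open AlgebraicCurve ModularCurve
open scoped Fermat.Agent.TwoAdic.Geometry
open Fermat.Agent.X0Analytic

namespace Fermat.Agent.TwoAdic.Bridge

open HeckeJ0 HeckeModule

local notation "ℚbar" => AlgebraicClosure ℚ

variable {M ℓ : ℕ} [NeZero M] [NeZero ℓ] (φ : ℚbar →+* ℂ) {n : ℕ} [NeZero n]

/-- Monodromy of a pullback along the inclusion of function fields: restriction. -/
theorem monodromy_resPic {x : JZero M}
    (hx : x ∈ Pic0.torsion ℚbar (modularFunctionFieldBar M) n)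
    {ψ : Additive (Gamma0 M) →+ ZMod n} {ψ' : Additive (Gamma0 (M * ℓ)) →+ ZMod n}
    (h : IsMonodromy φ n x ψ)
    (h' : IsMonodromy φ n (Geometry.resPic (dvd_mul_right M ℓ) x) ψ')
    (γ : Gamma0 (M * ℓ)) :
    ψ' (Additive.ofMul γ) = ψ (Additive.ofMul (inclGamma M ℓ γ)) := by
  rw [Geometry.resPic, Geometry.inclBar_eq_heckeAlphaBar] at h'
  refine monodromy_transfer φ (g := mapGL ℝ (1 : SL(2, ℤ))) (det_pos_mapGL 1) (inclGamma M ℓ)
    (fun γ => by rw [map_one, one_mul, mul_one]; rfl) (heckeAlphaBar ℚbar M ℓ).toRingHom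
    (fun f => ?_) hx (fun D f hD _ hf => ⟨_, by rw [← hD, Geometry.pullPic_mk],
      Geometry.ord_pullDiv (heckeAlphaBar ℚbar M ℓ) D hf⟩) h h' γ
  refine ((merModel φ).ι_heckeAlphaBar M ℓ f).trans ?_
  exact ((merModel φ).act_ι M 1 f).symm

/-- Monodromy of a pullback along `β`: conjugation. -/
theorem monodromy_pullBeta {x : JZero M}
    (hx : x ∈ Pic0.torsion ℚbar (modularFunctionFieldBar M) n)
    {ψ : Additive (Gamma0 M) →+ ZMod n} {ψ' : Additive (Gamma0 (M * ℓ)) →+ ZMod n}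
    (h : IsMonodromy φ n x ψ)
    (h' : IsMonodromy φ n (Geometry.pullPic (heckeBetaBar ℚbar M ℓ) x) ψ')
    (γ : Gamma0 (M * ℓ)) :
    ψ' (Additive.ofMul γ) = ψ (Additive.ofMul (degenConj M ℓ γ)) :=
  monodromy_transfer φ (g := scaleGL ℓ) (det_pos_scaleGL ℓ) (degenConj M ℓ)
    (fun γ => by rw [← degenMat_eq_scaleGL]; exact degenConj_spec γ)
    (heckeBetaBar ℚbar M ℓ).toRingHom
    (fun f => (merModel φ).ι_heckeBetaBar M ℓ f) hx
    (fun D f hD _ hf => ⟨_, by rw [← hD, Geometry.pullPic_mk],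
      Geometry.ord_pullDiv (heckeBetaBar ℚbar M ℓ) D hf⟩) h h' γ

section AtkinLehner

variable {q : ℕ} [NeZero q] {W : Finset ℕ}

lemma jFun_smul_mapGL (γ : SL(2, ℤ)) (τ : ℍ) : jFun (mapGL ℝ γ • τ) = jFun τ := jFun_smul γ τ

/-- An Atkin–Lehner matrix exchanges `j(d τ)` and `j(d q τ)`. -/
lemma scaledJ_alSet {A : LevelRaising.Mat} (hA : A ∈ alSet (M * q) q) (hA0 : A.det ≠ 0)
    {d : ℕ} [NeZero d] (hd : d ∣ M) (τ : ℍ) :
    scaledJ d (matGL A hA0 • τ) = scaledJ (d * q) τ ∧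
      scaledJ (d * q) (matGL A hA0 • τ) = scaledJ d τ := by
  obtain ⟨hdet, ⟨x, hx⟩, ⟨w, hw⟩, z, hz⟩ := hA
  obtain ⟨k, rfl⟩ := hd
  have hq : (q : ℤ) ≠ 0 := by exact_mod_cast NeZero.ne q
  rw [Matrix.det_fin_two, hx, hw, hz] at hdet
  push_cast at hdet hx hw hz
  have hdet' : (q : ℤ) * x * w - A 0 1 * ((d : ℤ) * k * z) = 1 :=
    mul_left_cancel₀ hq (by linear_combination hdet)
  let γ' : SL(2, ℤ) := ⟨!![x, (d : ℤ) * A 0 1; (k : ℤ) * z, q * w], by
    rw [Matrix.det_fin_two_of]; linear_combination hdet'⟩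
  let γ'' : SL(2, ℤ) := ⟨!![(q : ℤ) * x, (d : ℤ) * A 0 1; (k : ℤ) * z, w], by
    rw [Matrix.det_fin_two_of]; linear_combination hdet'⟩
  have hdC : (d : ℂ) ≠ 0 := Nat.cast_ne_zero.mpr (NeZero.ne d)
  have hqC : (q : ℂ) ≠ 0 := Nat.cast_ne_zero.mpr (NeZero.ne q)
  have hpos : 0 < (matGL A hA0).det.val := by
    rw [Matrix.GeneralLinearGroup.val_det_apply, val_matGL, Matrix.det_fin_two, Matrix.map_apply,
      Matrix.map_apply, Matrix.map_apply, Matrix.map_apply, hx, hw, hz]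
    push_cast
    have : (q : ℝ) * x * ((q : ℝ) * w) - (A 0 1 : ℝ) * ((d : ℝ) * k * q * z) = q := by
      exact_mod_cast hdet
    rw [this]; exact_mod_cast Nat.pos_of_ne_zero (NeZero.ne q)
  constructor
  · show jFun (scaleGL d • matGL A hA0 • τ) = jFun (scaleGL (d * q) • τ)
    rw [← jFun_smul_mapGL γ' (scaleGL (d * q) • τ)]
    refine congrArg jFun (UpperHalfPlane.ext ?_)
    rw [coe_scaleGL_smul, coe_smul_of_det_pos hpos,
      coe_smul_of_det_pos (det_pos_mapGL γ'), num, denom, num, denom, coe_scaleGL_smul]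
    rw [val_mapGL_apply, val_mapGL_apply, val_mapGL_apply, val_mapGL_apply]
    simp only [val_matGL, Matrix.map_apply, hx, hw, hz, γ',
      Matrix.of_apply, Matrix.cons_val_zero, Matrix.cons_val_one,
      Matrix.cons_val', Matrix.empty_val', Matrix.cons_val_fin_one]
    push_cast
    rw [← mul_div_assoc]
    congr 1 <;> ring
  · show jFun (scaleGL (d * q) • matGL A hA0 • τ) = jFun (scaleGL d • τ)
    rw [← jFun_smul_mapGL γ'' (scaleGL d • τ)]
    refine congrArg jFun (UpperHalfPlane.ext ?_)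
    rw [coe_scaleGL_smul, coe_smul_of_det_pos hpos,
      coe_smul_of_det_pos (det_pos_mapGL γ''), num, denom, num, denom, coe_scaleGL_smul]
    rw [val_mapGL_apply, val_mapGL_apply, val_mapGL_apply, val_mapGL_apply]
    simp only [val_matGL, Matrix.map_apply, hx, hw, hz, γ'',
      Matrix.of_apply, Matrix.cons_val_zero, Matrix.cons_val_one,
      Matrix.cons_val', Matrix.empty_val', Matrix.cons_val_fin_one]
    push_cast
    rw [← mul_div_assoc, show (d : ℂ) * k * q * z * (τ : ℂ) + q * w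
      = (q : ℂ) * ((k : ℂ) * z * ((d : ℂ) * τ) + w) by ring,
      show (d : ℂ) * q * ((q : ℂ) * x * τ + (A 0 1 : ℤ))
      = (q : ℂ) * ((q : ℂ) * x * ((d : ℂ) * τ) + (d : ℂ) * (A 0 1 : ℤ)) by ring,
      mul_div_mul_left _ _ hqC]

/-- `w_q` acts on meromorphic functions by an Atkin–Lehner matrix. -/
theorem toMer_wq (hq : q.Prime) (hqM : ¬ q ∣ M) (hW : IsALPrimes (M * q) W) (he : q ∈ W)
    (f : modularFunctionFieldBar (M * q)) :
    toMer (L := ℚbar) (N := M * q) φ (SemistableRed.wq hq hqM f) =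
      act (matGL (alMat (M * q) q) (alMat_det_ne_zero hW he))
        (toMer (L := ℚbar) (N := M * q) φ f) := by
  set g := matGL (alMat (M * q) q) (alMat_det_ne_zero hW he) with hg
  have hgpos := alMat_det_pos hW he
  have hA := alMat_mem hW he
  have hgen : ∀ a : ↥(algGen ℚbar (M * q)), toMer (L := ℚbar) φ (algToField ℚbar (M * q) a)
      = algebraMap Hol Mer (modToHol (M * q) (toModFun φ a)) := fun a =>
    fieldHom_algToField φ _ _ a
  refine RingHom.congr_fun (f := (toMer (L := ℚbar) (N := M * q) φ).comp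
      (SemistableRed.wq hq hqM).toRingEquiv.toRingHom)
    (g := (act g).comp (toMer (L := ℚbar) (N := M * q) φ)) (hom_ext (fun c => ?_) ?_) f
  · show toMer φ (SemistableRed.wq hq hqM (algebraMap ℚbar _ c))
      = act g (toMer φ (algebraMap ℚbar _ c))
    rw [AlgEquiv.commutes]
    rw [show toMer (L := ℚbar) φ (algebraMap ℚbar _ c)
      = algebraMap Hol Mer (modToHol (M * q) (algebraMap ℂ _ (φ c))) from fieldHom_algebraMap φ _ _ c,
      AlgHom.commutes, act_const hgpos]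
  · intro d _ hd
    show toMer φ (SemistableRed.wq hq hqM (algToField ℚbar (M * q) _))
      = act g (toMer φ (algToField ℚbar (M * q) _))
    obtain ⟨a, b, ha, hb, hab⟩ := exists_dvd_and_dvd_of_dvd_mul hd
    have : NeZero a := ⟨fun h => NeZero.ne M (Nat.eq_zero_of_zero_dvd (h ▸ ha))⟩
    rw [SemistableRed.wq, SemistableRed.atkinLehner_algToField, hgen, hgen, act_algebraMap hgpos]
    refine congrArg _ (Subtype.ext (funext fun τ => ?_))
    rw [preComp_apply]
    rcases (Nat.dvd_prime hq).mp hb with rfl | rfl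
    · rw [mul_one] at hab
      subst hab
      have e : (⟨jL ℚbar d, Algebra.subset_adjoin ⟨d, ‹_›, hd, rfl⟩⟩ : ↥(algGen ℚbar (M * q))) =
          Congruence.genAt ℚbar M q (⟨d, ha⟩, false) :=
        Subtype.ext (Congruence.coe_genAt_false (L := ℚbar) (ℓ := q) ⟨d, ha⟩).symm
      rw [e, Congruence.swapAlg_genAt]
      show ((toModFun φ (Congruence.genAt ℚbar M q (⟨d, ha⟩, true)) : ↥(modFun (M * q))) : ℍ → ℂ) τ =
        ((toModFun φ (Congruence.genAt ℚbar M q (⟨d, ha⟩, false)) : ↥(modFun (M * q))) : ℍ → ℂ) (g • τ)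
      simp only [Congruence.genAt]
      rw [toModFun_jL φ (Nat.mul_dvd_mul_right ha q), toModFun_jL φ (ha.mul_right q)]
      exact ((scaledJ_alSet hA _ ha τ).1).symm
    · subst hab
      have e : (⟨jL ℚbar (a * b), Algebra.subset_adjoin ⟨a * b, ‹_›, hd, rfl⟩⟩ :
          ↥(algGen ℚbar (M * b))) = Congruence.genAt ℚbar M b (⟨a, ha⟩, true) :=
        Subtype.ext (Congruence.coe_genAt_true (L := ℚbar) (ℓ := b) ⟨a, ha⟩).symm
      rw [e, Congruence.swapAlg_genAt]
      show ((toModFun φ (Congruence.genAt ℚbar M b (⟨a, ha⟩, false)) : ↥(modFun (M * b))) : ℍ → ℂ) τ =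
        ((toModFun φ (Congruence.genAt ℚbar M b (⟨a, ha⟩, true)) : ↥(modFun (M * b))) : ℍ → ℂ) (g • τ)
      simp only [Congruence.genAt]
      rw [toModFun_jL φ (Nat.mul_dvd_mul_right ha b), toModFun_jL φ (ha.mul_right b)]
      exact ((scaledJ_alSet hA _ ha τ).2).symm

/-- Monodromy of `w_q x`: conjugation by the Atkin–Lehner matrix. -/
theorem monodromy_alPic (hq : q.Prime) (hqM : ¬ q ∣ M) (hW : IsALPrimes (M * q) W) (he : q ∈ W)
    {x : JZero (M * q)} (hx : x ∈ Pic0.torsion ℚbar (modularFunctionFieldBar (M * q)) n)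
    {ψ ψ' : Additive (Gamma0 (M * q)) →+ ZMod n} (h : IsMonodromy φ n x ψ)
    (h' : IsMonodromy φ n (Geometry.alPic hq hqM x) ψ') (γ : Gamma0 (M * q)) :
    ψ' (Additive.ofMul γ) = ψ (Additive.ofMul (alConj hW he γ)) :=
  monodromy_transfer φ (alMat_det_pos hW he) (alConj hW he)
    (fun γ => (matGL_mul_toGL_iff _ _ _ _).mpr (alConj_spec hW he γ))
    (SemistableRed.wq hq hqM).toAlgHom.toRingHom (fun f => toMer_wq φ hq hqM hW he f) hx
    (fun D f hD _ hf => ⟨_, by rw [← hD, Geometry.alPic, Geometry.pullPic_mk],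
      Geometry.ord_pullDiv (SemistableRed.wq hq hqM).toAlgHom D hf⟩) h h' γ

end AtkinLehner

end Fermat.Agent.TwoAdic.Bridge
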