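import Fermat.Agent.TwoAdic.Geometry.Bridge.Transfer
import Fermat.Agent.TwoAdic.Modules.NewQuotient

/-!
# The Galois action on the modules of a setup

The Galois action on the modules `T.H V A` of a setup with trivial character, natural in the
coefficients and commuting with the Hecke operators, the involutions and the maps between levels.
-/

set_option autoImplicit false

noncomputable section

open Matrix.SpecialLinearGroup CongruenceSubgroup
open scoped MatrixGroups
open AlgebraicCurve ModularCurve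
open scoped Fermat.Agent.TwoAdic.Geometry

universe uO uA

namespace Fermat.Agent.TwoAdic.Bridge

open HeckeJ0 HeckeModule EigenSystems

local notation "ℚbar" => AlgebraicClosure ℚ

section Levels

variable {M ℓ N : ℕ} [NeZero M] [NeZero ℓ] [NeZero N]

omit [NeZero ℓ] [NeZero N] in
theorem resPic_refl (x : JZero M) : Geometry.resPic (dvd_refl M) x = x := by
  rw [Geometry.resPic, show Geometry.inclBar (dvd_refl M) =
      AlgHom.id ℚbar ↥(modularFunctionFieldBar M) from
    AlgHom.ext fun y => Subtype.ext (Geometry.coe_inclBar _ y), Geometry.pullPic_id]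

/-- Pullback along `z ↦ ℓ z` into level `N = M ℓ`. -/
def betaPic (h : M * ℓ = N) : JZero M →+ JZero N :=
  (Geometry.resPic (dvd_of_eq h)).comp (Geometry.pullPic (heckeBetaBar ℚbar M ℓ))

theorem betaPic_rfl (x : JZero M) :
    betaPic (ℓ := ℓ) rfl x = Geometry.pullPic (heckeBetaBar ℚbar M ℓ) x := resPic_refl _

theorem betaPic_galois (h : M * ℓ = N) (σ : ℚbar ≃ₐ[ℚ] ℚbar) (x : JZero M) :
    betaPic h (σ • x) = σ • betaPic h x := by
  subst h
  rw [betaPic_rfl, betaPic_rfl, galois_smul_pic0_def, galois_smul_pic0_def]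
  exact Geometry.pullPic_smul (intertwines_heckeBetaBar M ℓ σ) x

variable {q : ℕ} [NeZero q]

/-- The Atkin–Lehner involution at `q` at level `N = M q`. -/
def alAt (hq : q.Prime) (hqM : ¬ q ∣ M) (h : M * q = N) : JZero N →+ JZero N :=
  ((Geometry.resPic (dvd_of_eq h)).comp (Geometry.alPic hq hqM)).comp
    (Geometry.resPic (dvd_of_eq h.symm))

theorem alAt_rfl (hq : q.Prime) (hqM : ¬ q ∣ M) (x : JZero (M * q)) :
    alAt hq hqM rfl x = Geometry.alPic hq hqM x := by
  show Geometry.resPic _ (Geometry.alPic hq hqM (Geometry.resPic _ x)) = _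
  rw [resPic_refl, resPic_refl]

theorem alAt_galois (hq : q.Prime) (hqM : ¬ q ∣ M) (h : M * q = N) (σ : ℚbar ≃ₐ[ℚ] ℚbar)
    (x : JZero N) : alAt hq hqM h (σ • x) = σ • alAt hq hqM h x := by
  subst h
  rw [alAt_rfl, alAt_rfl, Geometry.alPic_galois]

end Levels

variable {O : Type uO} [CommRing O] {A : Type uA} [AddCommGroup A] [Module O A] {n : ℕ}
  [NeZero n]

/-- The trivial character gives trivial coefficients. -/
theorem trivial_rep {N K : ℕ} (hK : K ∣ N) {χ : (ZMod K)ˣ →* O} (hχ : χ = 1) (u : (ZMod N)ˣ) :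
    scalarRep (levelChar hK χ) A u = 1 := by
  subst hχ
  exact LinearMap.ext fun a => by
    rw [scalarRep_apply, MonoidHom.comp_apply, MonoidHom.one_apply, one_smul]
    rfl

/-- The degeneracy map of `z ↦ z` is the pullback along `z ↦ ℓ z`. -/
theorem charDegen_torsClass {M ℓ N K : ℕ} [NeZero M] [NeZero ℓ] [NeZero N] (h : M * ℓ = N)
    (hK : K ∣ M) (hK' : K ∣ N) {χ : (ZMod K)ˣ →* O} (hχ : χ = 1) (hd : 1 * M ∣ N)
    (ι : ZMod n →+ A) (x : Pic0.torsion ℚbar (modularFunctionFieldBar M) n) :
    charDegen A hK χ hK' one_ne_zero hd (torsClass (trivial_rep hK hχ) ι x) =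
      torsClass (trivial_rep hK' hχ) ι (torsRestrict n (betaPic h) x) := by
  subst h hχ
  exact (torsClass_pullBeta_char ι x (torsRestrict n (betaPic rfl) x) hK hK' hd
    ((coe_torsRestrict _ _).trans (betaPic_rfl _))).symm

/-- The Atkin–Lehner operator is `c` times the Atkin–Lehner involution. -/
theorem alOp_torsClass {M q N K : ℕ} [NeZero M] [NeZero q] [NeZero N] (hq : q.Prime)
    (hqM : ¬ q ∣ M) (h : M * q = N) {W : Finset ℕ} (hW : IsALPrimes N W) (he : q ∈ W)
    (hK : K ∣ N) {χ : (ZMod K)ˣ →* O} (hχ : χ = 1) (heK : q.Coprime K) (c : O)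
    (ι : ZMod n →+ A) (x : Pic0.torsion ℚbar (modularFunctionFieldBar N) n) :
    alOp A hW he hK χ heK c (torsClass (trivial_rep hK hχ) ι x) =
      c • torsClass (trivial_rep hK hχ) ι (torsRestrict n (alAt hq hqM h) x) := by
  subst h hχ
  have e : torsClass (trivial_rep hK rfl) ι (torsRestrict n (alAt hq hqM rfl) x) =
      alOp A hW he hK 1 heK 1 (torsClass (levelChar_one_rep (O := O) hK) ι x) :=
    torsClass_alPic ι hq hqM hW he hK heK x _ ((coe_torsRestrict _ _).trans (alAt_rfl hq hqM _))
  rw [e, torsClass_apply, alOp_toCoh, alOp_toCoh, ← map_smul]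
  refine congrArg (toCoh _) (Subtype.ext (funext fun γ => ?_))
  refine (alData_raw hW he hK 1 heK c _ γ).trans ?_
  show c • _ = c • (alData A hW he hK 1 heK 1).raw _ γ
  rw [alData_raw, one_smul]

section Setup

attribute [local instance] ALSetup.isPrime

variable {O : Type} [CommRing O] [IsLocalRing O] (T : ALSetup O) {A : Type uA} [AddCommGroup A]
  [Module O A] (hχ : T.χ = 1)

/-- Cocycles lift to free abelian groups at every level of the setup. -/
theorem liftableInt (V : Finset ℕ) : Liftable ℤ (T.level V) := by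
  have key : ∀ f : ∀ {n : ℕ}, ZMod n → ZMod n, (∀ {a b : ℕ} (h : a ∣ b) (t : ZMod b),
      ZMod.castHom h (ZMod a) (f t) = f (ZMod.castHom h (ZMod a) t)) →
      (∀ t : ZMod T.core, f t ≠ 0) → ∀ t : ZMod (T.level V), f t ≠ 0 := fun f hf h t ht => by
    have := congrArg (ZMod.castHom (dvd_mul_right T.core (prodOf V)) (ZMod T.core)) ht
    rw [hf, map_zero] at this
    exact h _ this
  exact ⟨Or.inr (S_smul_ne_self (key (fun t => t ^ 2 + 1)
      (fun _ _ => by simp only [map_add, map_pow, map_one]) T.elliptic₄)),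
    Or.inr (elV_smul_ne_self (key (fun t => t ^ 2 + t + 1)
      (fun _ _ => by simp only [map_add, map_pow, map_one]) T.elliptic₃))⟩

omit [NeZero n] [Module O A] in
/-- Localised `H¹` at the levels of the setup is spanned by torsion points. -/
theorem torsSpanned {V : Finset ℕ} (hV : V ⊆ T.W) [NeZero (T.level V)]
    (hA : ∀ a : A, n • a = 0) : TorsSpanned T.S (awayMonoid T.m) (T.level V) n A where
  liftable := liftableInt T V
  eisenstein := by
    obtain ⟨r, hr, hS, h1, hm⟩ := T.eisenstein
    have : Fact r.Prime := ⟨hr⟩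
    refine ⟨r, hr, hS, ?_, eisen_mem_awayMonoid hS hm⟩
    have := congrArg (ZMod.castHom (T.level_dvd hV) (ZMod (T.level V))) h1
    rwa [map_natCast, map_one] at this
  smul_eq_zero := hA

variable {V : Finset ℕ} (hV : V ⊆ T.W) [NeZero (T.level V)] (hA : ∀ a : A, n • a = 0)

/-- The class of a torsion point in `T.H V A`. -/
def setupClass (ι : ZMod n →+ A) (x : Pic0.torsion ℚbar (modularFunctionFieldBar (T.level V)) n)
    (s : awayMonoid T.m) : T.H V A :=
  torsLoc (trivial_rep (T.dvd_level V) hχ) (awayMonoid T.m) ι x s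

/-- The Galois action on `T.H V A`. -/
def setupGal : (ℚbar ≃ₐ[ℚ] ℚbar) →* Module.End O (T.H V A) :=
  galLocHom (trivial_rep (T.dvd_level V) hχ) (torsSpanned T hV hA) (isAway_awayMonoid T.m)

include hV hA in
/-- Additive maps on `T.H V A` are determined on torsion points. -/
theorem setup_ext {B : Type*} [AddCommMonoid B] {F G : T.H V A →+ B}
    (h : ∀ (ι : ZMod n →+ A) x s, F (setupClass T hχ ι x s) = G (setupClass T hχ ι x s)) :
    F = G :=
  loc_ext (trivial_rep (T.dvd_level V) hχ) (torsSpanned T hV hA) h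

theorem setupGal_setupClass (σ : ℚbar ≃ₐ[ℚ] ℚbar) (ι : ZMod n →+ A)
    (x : Pic0.torsion ℚbar (modularFunctionFieldBar (T.level V)) n) (s : awayMonoid T.m) :
    setupGal T hχ hV hA σ (setupClass T hχ ι x s) =
      setupClass T hχ ι (galTors (T.level V) n σ x) s :=
  galLoc_torsLoc (trivial_rep (T.dvd_level V) hχ) (torsSpanned T hV hA) (isAway_awayMonoid T.m)
    σ ι x s

/-- Galois commutes with the Hecke operators. -/
theorem setupGal_smul (σ : ℚbar ≃ₐ[ℚ] ℚbar) (a : AwayPoly O T.S) (z : T.H V A) :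
    setupGal T hχ hV hA σ (awayIncl O T.S a • z) =
      awayIncl O T.S a • setupGal T hχ hV hA σ z :=
  galLoc_smul (trivial_rep (T.dvd_level V) hχ) (torsSpanned T hV hA) (isAway_awayMonoid T.m) σ a z

omit hA in
/-- The involution on torsion points. -/
theorem w_setupClass {e M : ℕ} [NeZero M] [NeZero e] (he : e ∈ V) (heM : ¬ e ∣ M)
    (h : M * e = T.level V) (ι : ZMod n →+ A)
    (x : Pic0.torsion ℚbar (modularFunctionFieldBar (T.level V)) n) (s : awayMonoid T.m) :
    T.w A hV e (setupClass T hχ ι x s) =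
      T.c e • setupClass T hχ ι
        (torsRestrict n (alAt (T.prime e (hV he)) heM h) x) s := by
  simp only [setupClass, torsLoc]
  rw [ALSetup.w_mk _ _ he,
    alOp_torsClass (T.prime e (hV he)) heM h (T.isAL hV) he (T.dvd_level V) hχ,
    LocalizedModule.smul'_mk]

attribute [irreducible] setupClass setupGal

/-- Galois commutes with the involutions. -/
theorem setupGal_w {e : ℕ} (he : e ∈ V) (σ : ℚbar ≃ₐ[ℚ] ℚbar) (z : T.H V A) :
    setupGal T hχ hV hA σ (T.w A hV e z) = T.w A hV e (setupGal T hχ hV hA σ z) := by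
  have hes : V.erase e ⊆ T.W := (Finset.erase_subset e V).trans hV
  have : NeZero (T.level (V.erase e)) := ⟨T.level_ne_zero hes⟩
  have : NeZero e := ⟨(T.prime e (hV he)).ne_zero⟩
  have heM := T.not_dvd_level hes (hV he) (Finset.notMem_erase e V)
  have h : T.level (V.erase e) * e = T.level V := by
    rw [mul_comm, ← T.level_insert (Finset.notMem_erase e V), Finset.insert_erase he]
  refine DFunLike.congr_fun (setup_ext T hχ hV hA
    (F := (setupGal T hχ hV hA σ ∘ₗ T.w A hV e).toAddMonoidHom)
    (G := (T.w A hV e ∘ₗ setupGal T hχ hV hA σ).toAddMonoidHom) fun ι x s => ?_) z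
  show setupGal T hχ hV hA σ (T.w A hV e _) = T.w A hV e (setupGal T hχ hV hA σ _)
  rw [w_setupClass T hχ hV he heM h, map_smul, setupGal_setupClass, setupGal_setupClass,
    w_setupClass T hχ hV he heM h]
  refine congrArg (fun y => T.c e • setupClass T hχ ι y s) (Subtype.ext ?_)
  rw [coe_galTors, coe_torsRestrict, coe_torsRestrict, coe_galTors, alAt_galois]

omit hA in
/-- The map from a lower level on torsion points. -/
theorem res_setupClass {V' : Finset ℕ} (hVV : V' ⊆ V) [NeZero (T.level V')] {ℓ : ℕ} [NeZero ℓ]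
    (h : T.level V' * ℓ = T.level V) (ι : ZMod n →+ A)
    (x : Pic0.torsion ℚbar (modularFunctionFieldBar (T.level V')) n) (s : awayMonoid T.m) :
    T.res A hV hVV (setupClass T hχ ι x s) =
      setupClass T hχ ι (torsRestrict n (betaPic h) x) s := by
  simp only [setupClass, torsLoc]
  rw [ALSetup.res_mk, charDegen_torsClass h (T.dvd_level V') (T.dvd_level V)
    hχ (T.one_mul_level_dvd hVV)]

/-- Galois commutes with the maps between the levels. -/
theorem setupGal_res {V' : Finset ℕ} (hVV : V' ⊆ V) [NeZero (T.level V')]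
    (σ : ℚbar ≃ₐ[ℚ] ℚbar) (z : T.H V' A) :
    T.res A hV hVV (setupGal T hχ (hVV.trans hV) hA σ z) =
      setupGal T hχ hV hA σ (T.res A hV hVV z) := by
  obtain ⟨ℓ, hℓ⟩ := T.level_dvd hVV
  have : NeZero ℓ := ⟨fun h0 => T.level_ne_zero hV (by rw [hℓ, h0, mul_zero])⟩
  refine DFunLike.congr_fun (setup_ext T hχ (hVV.trans hV) hA
    (F := (T.res A hV hVV ∘ₗ setupGal T hχ (hVV.trans hV) hA σ).toAddMonoidHom)
    (G := (setupGal T hχ hV hA σ ∘ₗ T.res A hV hVV).toAddMonoidHom) fun ι x s => ?_) z
  show T.res A hV hVV (setupGal T hχ (hVV.trans hV) hA σ _) =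
    setupGal T hχ hV hA σ (T.res A hV hVV _)
  rw [setupGal_setupClass, res_setupClass T hχ hV hVV hℓ.symm,
    res_setupClass T hχ hV hVV hℓ.symm, setupGal_setupClass]
  refine congrArg (fun y => setupClass T hχ ι y s) (Subtype.ext ?_)
  rw [coe_torsRestrict, coe_galTors, coe_galTors, coe_torsRestrict, betaPic_galois]

end Setup

end Fermat.Agent.TwoAdic.Bridge
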