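import Fermat.Agent.TwoAdic.Geometry.Bridge.Setup
import Fermat.Agent.TwoAdic.Modules.NonVanishing
import Fermat.Agent.SemistableRed.NormMaps
import Fermat.Agent.HeckeModule.Natural

/-!
# The trace and the norm on torsion points

The trace of a setup on torsion points is the norm along `q ↦ q ^ q`: the multiplier of a norm is
the transfer of the multiplier. Hence it commutes with the Galois action.
-/

set_option autoImplicit false

noncomputable section

open Matrix.SpecialLinearGroup CongruenceSubgroup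
open scoped MatrixGroups
open AlgebraicCurve ModularCurve
open scoped Fermat.Agent.TwoAdic.Geometry

universe uO uA

namespace Fermat.Agent.TwoAdic.Bridge

open HeckeJ0 HeckeModule EigenSystems LevelRaising
open Fermat.Agent.X0Analytic

local notation "ℚbar" => AlgebraicClosure ℚ

section Norm

variable {M q : ℕ} [NeZero M] [NeZero q]

omit [NeZero M] [NeZero q] in
lemma fact_trace_level (hq : q.Prime) (hqM : ¬ q ∣ M) :
    IsFact (Lvl M) (Lvl (M * q)) (traceMat M q) := by
  have : Fact q.Prime := ⟨hq⟩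
  rw [mul_comm]
  exact fact_traceMat' hqM

variable (φ : ℚbar →+* ℂ) (hq : q.Prime) (hqM : ¬ q ∣ M)

include hq hqM in
/-- The Atkin–Lehner matrix times `W_M` is `W_{M q}` times an element of `Γ₀(M)`. -/
lemma exists_alMat_mul_fricke (hW : IsALPrimes (M * q) {q}) :
    ∃ k : Gamma0 M, matGL (alMat (M * q) q) (alMat_det_ne_zero hW (Finset.mem_singleton_self q)) *
      fricke M = fricke (M * q) * mapGL ℝ (k : SL(2, ℤ)) := by
  have hdet : (mm q (alB M q) M (alD M q)).det = 1 := by
    rw [Matrix.det_fin_two]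
    simp only [mm_zero_zero, mm_zero_one, mm_one_zero, mm_one_one]
    linarith [al_spec hq hqM]
  let k₀ : Gamma0 M := ⟨⟨mm q (alB M q) M (alD M q), hdet⟩, (mem_Gamma0_iff_dvd _).mpr
    (by show (M : ℤ) ∣ mm q (alB M q) M (alD M q) 1 0; simp)⟩
  refine ⟨frickeConj k₀, ?_⟩
  have h : mapGL ℝ (k₀ : SL(2, ℤ)) * fricke M =
      fricke M * mapGL ℝ (frickeConj k₀ : SL(2, ℤ)) := by
    have := frickeConj_mul_fricke (frickeConj k₀)
    rwa [frickeConj_frickeConj] at this
  have hdiag : (!![1, 0; 0, (q : ℝ)] : Matrix (Fin 2) (Fin 2) ℝ).det ≠ 0 := by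
    simp [Matrix.det_fin_two_of, hq.ne_zero]
  let D : GL (Fin 2) ℝ := Matrix.GeneralLinearGroup.mkOfDetNeZero _ hdiag
  have hD : (D : Matrix (Fin 2) (Fin 2) ℝ) = !![1, 0; 0, (q : ℝ)] := rfl
  have h1 : matGL (alMat (M * q) q) (alMat_det_ne_zero hW (Finset.mem_singleton_self q)) =
      D * mapGL ℝ (k₀ : SL(2, ℤ)) := by
    refine Units.ext ?_
    rw [Units.val_mul, val_matGL, hD, ← toGL_apply, val_toGL]
    rw [alMat, Nat.mul_div_cancel M hq.pos]
    ext i j
    fin_cases i <;> fin_cases j <;>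
      simp [wMat, k₀, Matrix.mul_apply, Fin.sum_univ_two, mul_comm]
  have h2 : D * fricke M = fricke (M * q) := by
    refine Units.ext ?_
    rw [Units.val_mul, hD, val_fricke, val_fricke]
    ext i j
    fin_cases i <;> fin_cases j <;> simp [Matrix.mul_apply, Fin.sum_univ_two, mul_comm]
  rw [h1, mul_assoc, h, ← mul_assoc, h2]

include hq hqM in
/-- The norm along `β`, twisted by `W_M`: a product over the cosets of `Γ₀(M q)` in `Γ₀(M)`. -/
lemma ιW_normAlong_heckeBeta (f : modularFunctionFieldBar (M * q)) :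
    (merModel φ).ιW M (HeckeJ0.normAlong (heckeBetaBar ℚbar M q) f) =
      ∏ i : Option (Fin q), act (matGL (traceMat M q i)
        ((fact_trace_level hq hqM).det_ne_zero i)) ((merModel φ).ιW (M * q) f) := by
  classical
  have : Fact q.Prime := ⟨hq⟩
  have hW : IsALPrimes (M * q) {q} := by
    intro e he
    rw [Finset.mem_singleton] at he
    subst he
    exact ⟨hq, dvd_mul_left _ _, fun h => hqM ((Nat.mul_dvd_mul_iff_right hq.pos).mp h)⟩
  set A := matGL (alMat (M * q) q) (alMat_det_ne_zero hW (Finset.mem_singleton_self q))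
  have hA := alMat_det_pos hW (Finset.mem_singleton_self q)
  obtain ⟨k, hk⟩ := exists_alMat_mul_fricke hq hqM hW
  set δ : Idx M q → Gamma0 M := fun x => k * gammaOf x
  -- the norm is the norm along `α` of `w f`
  have hn : HeckeJ0.normAlong (heckeBetaBar ℚbar M q) f =
      HeckeJ0.normAlong (heckeAlphaBar ℚbar M q) (SemistableRed.wq hq hqM f) :=
    @Algebra.norm_eq_of_equiv_equiv (modularFunctionFieldBar M) (modularFunctionFieldBar (M * q))
      (modularFunctionFieldBar M) (modularFunctionFieldBar (M * q)) _ _ _ _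
      (algebraAlong (heckeBetaBar ℚbar M q)) (algebraAlong (heckeAlphaBar ℚbar M q))
      (RingEquiv.refl _) (SemistableRed.wq hq hqM).toRingEquiv
      (RingHom.ext fun a => (SemistableRed.wq_heckeBetaBar hq hqM a).symm) f
  have hconj : ∀ (x : Idx M q) (g : modularFunctionFieldBar (M * q)),
      act (fricke M) ((merModel φ).conjHom M q x (SemistableRed.wq hq hqM g)) =
        act (mapGL ℝ (δ x : SL(2, ℤ))) ((merModel φ).ιW (M * q) g) := by
    intro x g
    show act (fricke M) (act (mapGL ℝ (frickeConj (gammaOf x) : SL(2, ℤ)))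
      (toMer (L := ℚbar) (N := M * q) φ (SemistableRed.wq hq hqM g))) =
      act (mapGL ℝ (δ x : SL(2, ℤ))) (act (fricke (M * q)) (toMer (L := ℚbar) (N := M * q) φ g))
    rw [toMer_wq φ hq hqM hW (Finset.mem_singleton_self q),
      ← act_mul (det_pos_mapGL _) (det_pos_fricke M), frickeConj_mul_fricke,
      ← act_mul hA (det_pos_mul (det_pos_fricke M) (det_pos_mapGL _)),
      ← act_mul (det_pos_fricke (M * q)) (det_pos_mapGL _), ← mul_assoc, hk, mul_assoc,
      show mapGL ℝ ((δ x : Gamma0 M) : SL(2, ℤ)) =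
        mapGL ℝ (k : SL(2, ℤ)) * mapGL ℝ (gammaOf x : SL(2, ℤ)) from by
        rw [← map_mul]; rfl]
  have hinv : ∀ (u : Gamma0 (M * q)) (F : modularFunctionFieldBar (M * q)),
      act (mapGL ℝ (u : SL(2, ℤ))) ((merModel φ).ιW (M * q) F) = (merModel φ).ιW (M * q) F :=
    (merModel φ).act_ιW (M * q)
  -- the matching with the standard representatives
  have hdec : ∀ x : Idx M q, ∃ i, ∀ F, act (mapGL ℝ (δ x : SL(2, ℤ))) ((merModel φ).ιW (M * q) F) =
      act (matGL (traceMat M q i) ((fact_trace_level hq hqM).det_ne_zero i))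
        ((merModel φ).ιW (M * q) F) := by
    intro x
    obtain ⟨i, y, hy, he⟩ := (fact_trace_level hq hqM).fact _ (coe_mem_lvl (δ x))
    have hGL : mapGL ℝ (δ x : SL(2, ℤ)) = mapGL ℝ (lvlElt hy : SL(2, ℤ)) *
        matGL (traceMat M q i) ((fact_trace_level hq hqM).det_ne_zero i) := by
      refine Units.ext ?_
      rw [Units.val_mul, ← toGL_apply, ← toGL_apply, val_toGL, val_toGL, val_matGL,
        ← Matrix.map_mul_intCast, he]
      rfl
    refine ⟨i, fun F => ?_⟩
    have hpos : 0 < (matGL (traceMat M q i)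
        ((fact_trace_level hq hqM).det_ne_zero i)).det.val := by
      have h1 : (mapGL ℝ (δ x : SL(2, ℤ))).det.val = (mapGL ℝ (lvlElt hy : SL(2, ℤ))).det.val *
          (matGL (traceMat M q i) ((fact_trace_level hq hqM).det_ne_zero i)).det.val := by
        rw [hGL, map_mul, Units.val_mul]
      exact pos_of_mul_pos_right (h1 ▸ det_pos_mapGL _) (det_pos_mapGL _).le
    rw [hGL, act_mul (det_pos_mapGL _) hpos, hinv]
  choose e he using hdec
  have hinj : Function.Injective e := fun x y hxy => by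
    refine (merModel φ).conjHom_injective M q (RingHom.ext fun g => ?_)
    refine (act (fricke M)).injective ?_
    rw [← SemistableRed.wq_wq hq hqM g, hconj, hconj, he x, he y, hxy]
  have hbij : Function.Bijective e := (Fintype.bijective_iff_injective_and_card e).mpr
    ⟨hinj, by rw [card_idx hqM, Fintype.card_option, Fintype.card_fin]⟩
  show act (fricke M) ((merModel φ).ι M _) = _
  rw [hn, (merModel φ).ι_normAlong_alpha M q (degreeAlpha M q), map_prod]
  exact Fintype.prod_bijective e hbij _ _ fun x => (hconj x f).trans (he x f)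

/-- Trivial coefficients transfer data for the cosets of `Γ₀(M q)` in `Γ₀(M)`. -/
def cosetData : Data (toGL (M * q)) (toGL M) (gammaRep (trivRep (M * q) ℤ ℤ))
    (gammaRep (trivRep M ℤ ℤ)) {negOne (M * q)} {negOne M} (Option (Fin q)) :=
  factData ℤ (fact_trace_level hq hqM) fun _ hx _ hγ => lvl_mul hx hγ

include hq hqM in
/-- The multiplier of a norm is the transfer of the multiplier. -/
theorem char_normAlong_heckeBeta {n : ℕ} (hn : n ≠ 0) {χ : Gamma0 (M * q) →* ℂ}
    {χ' : Gamma0 M →* ℂ} {f : modularFunctionFieldBar (M * q)}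
    (h : J0Torsion.HasChar (M * q) n (coeffMap φ (f : LaurentSeries ℚbar)) χ)
    (h' : J0Torsion.HasChar M n (coeffMap φ
      ((HeckeJ0.normAlong (heckeBetaBar ℚbar M q) f : modularFunctionFieldBar M) :
        LaurentSeries ℚbar)) χ') (γ : Gamma0 M) :
    χ' (frickeConj γ) = ∏ i, χ (frickeConj ((cosetData hq hqM).tr i γ)) := by
  obtain ⟨r, hr0, hr, hract⟩ := exists_root φ hn h
  obtain ⟨r', hr'0, hr', hr'act⟩ := exists_root φ hn h'
  set D := cosetData hq hqM
  have hpos : ∀ i, 0 < (D.α i).det.val := fun i => by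
    show 0 < (matGL (traceMat M q i) ((fact_trace_level hq hqM).det_ne_zero i)).det.val
    rw [Matrix.GeneralLinearGroup.val_det_apply, val_matGL,
      show ((traceMat M q i).map (Int.cast : ℤ → ℝ)).det = ((traceMat M q i).det : ℝ) from
        ((Int.castRingHom ℝ).map_det _).symm]
    have h1 := (fact_trace_level hq hqM).mem 1 (one_mem_lvl _) i
    rw [one_mul] at h1
    rw [h1.1, Int.cast_one]
    exact one_pos
  have key : ∀ {L : ℕ} [NeZero L] (ψ : Gamma0 L →* ℂ) (s : Mer),
      (∀ g : Gamma0 L, act (mapGL ℝ (g : SL(2, ℤ))) s = constMer (ψ g) * s) →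
      ∀ g : Gamma0 L, act (mapGL ℝ (g : SL(2, ℤ))) (act (fricke L) s) =
        constMer (ψ (frickeConj g)) * act (fricke L) s := by
    intro L _ ψ s hs g
    rw [← act_mul (det_pos_fricke L) (det_pos_mapGL _), ← frickeConj_mul_fricke,
      act_mul (det_pos_mapGL _) (det_pos_fricke L), hs, map_mul, act_constMer (det_pos_fricke L)]
  set R : Mer := ∏ i, act (D.α i) (act (fricke (M * q)) r) with hR
  have hRn : act (fricke M) r' ^ n = R ^ n := by
    rw [← map_pow, hr', hR, ← Finset.prod_pow]
    refine (ιW_normAlong_heckeBeta φ hq hqM f).trans (Finset.prod_congr rfl fun i _ => ?_)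
    rw [← map_pow, ← map_pow, hr]
    rfl
  have hR0 : R ≠ 0 := Finset.prod_ne_zero_iff.mpr fun i _ =>
    (map_ne_zero _).mpr ((map_ne_zero _).mpr hr0)
  obtain ⟨c, hc⟩ := exists_mul_of_pow_eq hn hR0 hRn
  have hRγ : act (mapGL ℝ (γ : SL(2, ℤ))) R =
      constMer (∏ i, χ (frickeConj (D.tr i γ))) * R := by
    rw [hR, map_prod, map_prod,
      ← Equiv.prod_comp (D.permEquiv toGL_injective γ) fun i => act (D.α i) (act (fricke (M * q)) r),
      ← Finset.prod_mul_distrib]
    refine Finset.prod_congr rfl fun i _ => ?_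
    have h1 := D.mul_spec i γ
    rw [toGL_apply, toGL_apply] at h1
    rw [← act_mul (hpos _) (det_pos_mapGL _)]
    rw [h1, act_mul (det_pos_mapGL _) (hpos _), key χ r hract, map_mul, act_constMer (hpos _)]
    rfl
  have h1 := key χ' r' hr'act γ
  rw [hc, map_mul, act_constMer (det_pos_mapGL _), hRγ] at h1
  have hc0 : constMer c ≠ 0 := fun h0 =>
    (map_ne_zero (act (fricke M))).mpr hr'0 (by rw [hc, h0, zero_mul])
  refine constMer.injective (mul_right_cancel₀ (mul_ne_zero hc0 hR0) ?_)
  rw [← h1]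
  ring

end Norm

/-- The norm along `β` from level `N = M q`. -/
def trPic {M q N : ℕ} [NeZero M] [NeZero q] [NeZero N] (h : M * q = N) : JZero N →+ JZero M :=
  (SemistableRed.normMap M q (heckeBetaBar ℚbar M q)).comp
    (Geometry.resPic (dvd_of_eq h.symm))

theorem trPic_rfl {M q : ℕ} [NeZero M] [NeZero q] (x : JZero (M * q)) :
    trPic (M := M) (q := q) rfl x = SemistableRed.normMap M q (heckeBetaBar ℚbar M q) x :=
  congrArg _ (resPic_refl x)

theorem trPic_galois {M q N : ℕ} [NeZero M] [NeZero q] [NeZero N] (h : M * q = N)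
    (σ : ℚbar ≃ₐ[ℚ] ℚbar) (x : JZero N) : trPic h (σ • x) = σ • trPic h x := by
  subst h
  rw [trPic_rfl, trPic_rfl]
  exact SemistableRed.normMaps_equivariant M q true σ x

section Classes

variable {O : Type uO} [CommRing O] {A : Type uA} [AddCommGroup A] [Module O A] {n : ℕ} [NeZero n]

/-- The monodromy of a norm is the transfer of the monodromy. -/
theorem torsHom_trPic {M q : ℕ} [NeZero M] [NeZero q] (hq : q.Prime) (hqM : ¬ q ∣ M)
    (ι : ZMod n →+ A) (x : Pic0.torsion ℚbar (modularFunctionFieldBar (M * q)) n) (γ : Gamma0 M) :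
    torsHom ι (torsRestrict n (trPic (M := M) (q := q) rfl) x) (Additive.ofMul γ) =
      ∑ i, torsHom ι x (Additive.ofMul ((cosetData hq hqM).tr i γ)) := by
  simp only [torsHom_apply]
  rw [← map_sum]
  refine congrArg ι (ZMod.injective_stdAddChar ?_)
  rw [stdAddChar_sum]
  obtain ⟨D, f, hD, hf, hDf⟩ := exists_divisor_function x.2
  have := SemistableRed.isFunctionField_bar M
  have := SemistableRed.isFunctionField_bar (M * q)
  set ψ := heckeBetaBar ℚbar M q
  let D' := SemistableRed.pushDegZero ψ (HeckeJ0.isIntegral_of_isFunctionField ψ) D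
  have hy : Pic0.mk D' = (torsRestrict n (trPic (M := M) (q := q) rfl) x : JZero M) := by
    rw [coe_torsRestrict, trPic_rfl, ← hD]
    rfl
  have hdiv : ∀ v, (n : ℤ) * (D' : Divisor ℚbar (modularFunctionFieldBar M)) v =
      v.ord (HeckeJ0.normAlong ψ f) := fun v => by
    have h1 := Congruence.pushforwardAlong_eq_ord ψ (HeckeJ0.isIntegral_of_isFunctionField ψ)
      (FunctionFieldRR.finiteAlong ψ) (FunctionFieldRR.normFormulaAlong ψ _) hf
      (E := (n : ℤ) • (D : Divisor ℚbar (modularFunctionFieldBar (M * q))))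
      (fun w => by rw [Finsupp.smul_apply, smul_eq_mul]; exact hDf w) v
    rw [map_zsmul, Finsupp.smul_apply, smul_eq_mul] at h1
    exact h1
  have hf' : HeckeJ0.normAlong ψ f ≠ 0 :=
    HeckeJ0.normAlong_ne_zero (FunctionFieldRR.finiteAlong ψ) hf
  exact char_normAlong_heckeBeta J0Torsion.jEmb hq hqM (NeZero.ne n)
    (isMonodromy_torsionEquiv (M * q) n x D f hD hf hDf)
    (isMonodromy_torsionEquiv M n _ D' _ hy hf' hdiv) γ

/-- The trace on torsion points. -/
theorem charTrace_torsClass {M q N K : ℕ} [NeZero M] [NeZero q] [NeZero N] [Fact q.Prime]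
    (h : M * q = N) (hqM : ¬ q ∣ M) (hK : K ∣ M) (hK' : K ∣ N) (hKq : K ∣ q * M)
    {χ : (ZMod K)ˣ →* O} (hχ : χ = 1) (hd : 1 * N ∣ q * M) (ι : ZMod n →+ A)
    (x : Pic0.torsion ℚbar (modularFunctionFieldBar N) n) :
    charTrace A hK χ hqM hKq
        (charDegen A hK' χ hKq one_ne_zero hd (torsClass (trivial_rep hK' hχ) ι x)) =
      torsClass (trivial_rep hK hχ) ι (torsRestrict n (trPic h) x) := by
  subst h hχ
  rw [torsClass_apply, torsClass_apply]
  refine congrArg (toCoh _) (Subtype.ext (funext fun γ => ?_))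
  show (charTraceData A hK 1 hqM hKq).raw
      ((charDegenData A hK' 1 hKq one_ne_zero hd).raw
        (torsCocycle (trivial_rep (A := A) hK' (rfl : (1 : (ZMod K)ˣ →* O) = 1)) ι x).1) γ =
    torsHom ι (torsRestrict n (trPic rfl) x) (Additive.ofMul γ)
  rw [torsHom_trPic (Fact.out : q.Prime) hqM ι x γ, Data.raw_apply]
  refine Finset.sum_congr rfl fun i _ => ?_
  show (charDegenData A hK' (1 : (ZMod K)ˣ →* O) hKq one_ne_zero hd).raw _
    ((charTraceData A hK (1 : (ZMod K)ˣ →* O) hqM hKq).tr i γ) = _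
  rw [Data.raw_apply, Fintype.sum_unique]
  set g' := (charTraceData A hK (1 : (ZMod K)ˣ →* O) hqM hKq).tr i γ with hg'
  have hmem : ((g' : Gamma0 (q * M)) : SL(2, ℤ)) ∈ Gamma0 (M * q) := by
    rw [mul_comm M q]; exact g'.2
  have h1 : ((charDegenData A hK' (1 : (ZMod K)ˣ →* O) hKq one_ne_zero hd).tr default g') =
      ⟨_, hmem⟩ := by
    refine ((charDegenData A hK' (1 : (ZMod K)ˣ →* O) hKq one_ne_zero hd).spec_unique toGL_injective
      (y := default) ?_).2
    show degenMat 1 * toGL (q * M) g' = toGL (M * q) ⟨_, hmem⟩ * degenMat 1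
    rw [degenMat_one, one_mul, mul_one]
    rfl
  have hα : ∀ j, (cosetData (Fact.out : q.Prime) hqM).α j =
      (charTraceData A hK (1 : (ZMod K)ˣ →* O) hqM hKq).α j := fun j => rfl
  have key := (charTraceData A hK (1 : (ZMod K)ˣ →* O) hqM hKq).mul_spec i γ
  rw [← hα, ← hα] at key
  have hgl : toGL (q * M) g' = toGL (M * q) ⟨_, hmem⟩ := by
    rw [toGL_apply, toGL_apply]
  rw [← hg', hgl] at key
  have h2 : (cosetData (Fact.out : q.Prime) hqM).tr i γ = ⟨_, hmem⟩ :=
    ((cosetData (Fact.out : q.Prime) hqM).spec_unique toGL_injective key).2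
  rw [h1, h2]
  rfl

end Classes

section Setup

attribute [local instance] ALSetup.isPrime

variable {O : Type} [CommRing O] [IsLocalRing O] (T : ALSetup O) {A : Type uA} [AddCommGroup A]
  [Module O A] (hχ : T.χ = 1) {n : ℕ} [NeZero n] {q : ℕ} [Fact q.Prime] [NeZero q] {V U : Finset ℕ}
  (hS : T.CoreInS) (hV : V ⊆ T.W) (hqU : q ∉ U) (hUV : insert q U = V) [NeZero (T.level V)]
  [NeZero (T.level U)]

/-- **The trace on torsion points is the norm.** -/
theorem tr_setupClass (h : T.level U * q = T.level V) (ι : ZMod n →+ A)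
    (x : Pic0.torsion ℚbar (modularFunctionFieldBar (T.level V)) n) (s : awayMonoid T.m) :
    T.tr A hS hV hqU hUV (setupClass T hχ ι x s) =
      setupClass T hχ ι (torsRestrict n (trPic h) x) s := by
  unfold setupClass torsLoc
  rw [ALSetup.tr_mk, charTrace_torsClass h (T.not_dvd_face hV hqU hUV) (T.dvd_level U)
    (T.dvd_level V) ((T.dvd_level U).mul_left q) hχ (T.insert_dvd_mul hqU hUV)]

/-- Galois commutes with the trace. -/
theorem tr_setupGal (hA : ∀ a : A, n • a = 0) (σ : ℚbar ≃ₐ[ℚ] ℚbar) (z : T.H V A) :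
    T.tr A hS hV hqU hUV (setupGal T hχ hV hA σ z) =
      setupGal T hχ (T.face_subset hV hUV) hA σ (T.tr A hS hV hqU hUV z) := by
  have h : T.level U * q = T.level V := by
    rw [mul_comm, ← T.level_insert hqU, hUV]
  refine DFunLike.congr_fun (setup_ext T hχ hV hA
    (F := (T.tr A hS hV hqU hUV ∘ₗ setupGal T hχ hV hA σ).toAddMonoidHom)
    (G := (setupGal T hχ (T.face_subset hV hUV) hA σ ∘ₗ T.tr A hS hV hqU hUV).toAddMonoidHom)
    fun ι x s => ?_) z
  show T.tr A hS hV hqU hUV (setupGal T hχ hV hA σ _) =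
    setupGal T hχ (T.face_subset hV hUV) hA σ (T.tr A hS hV hqU hUV _)
  rw [setupGal_setupClass, tr_setupClass T hχ hS hV hqU hUV h, tr_setupClass T hχ hS hV hqU hUV h,
    setupGal_setupClass]
  refine congrArg (fun y => setupClass T hχ ι y s) (Subtype.ext ?_)
  rw [coe_torsRestrict, coe_galTors, coe_galTors, coe_torsRestrict, trPic_galois]

end Setup

end Fermat.Agent.TwoAdic.Bridge
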