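import Fermat.Agent.TwoAdic.Geometry.Bridge.Good
import Fermat.Agent.HeckeJ0.Inputs
import Fermat.Agent.HeckeModule.LocLift
import Fermat.Agent.HeckeModule.Localize

/-!
# Maps of torsion points acting on localised `H¹`

Localised `H¹` is spanned by the classes of torsion points, so an additive map of torsion points
commuting with the Hecke operators away from `S` acts on it, naturally in everything.
-/

set_option autoImplicit false

noncomputable section

open Matrix.SpecialLinearGroup CongruenceSubgroup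
open scoped MatrixGroups
open AlgebraicCurve ModularCurve
open scoped Fermat.Agent.TwoAdic.Geometry

universe uO uA

namespace Fermat.Agent.TwoAdic.Bridge

open HeckeJ0 HeckeModule EigenSystems

local notation "ℚbar" => AlgebraicClosure ℚ

section Tors

variable {N N' : ℕ} [NeZero N] [NeZero N'] {n : ℕ}

variable (n) in
/-- A map of Jacobians on the `n`-torsion. -/
def torsRestrict (f : JZero N →+ JZero N') :
    Pic0.torsion ℚbar (modularFunctionFieldBar N) n →+
      Pic0.torsion ℚbar (modularFunctionFieldBar N') n :=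
  (f.comp (AddSubgroup.subtype _)).codRestrict _ fun x => by
    have h := Pic0.mem_torsion.mp x.2
    refine Pic0.mem_torsion.mpr ?_
    show (n : ℤ) • f (x : JZero N) = 0
    rw [← map_zsmul, h, map_zero]

omit [NeZero N] [NeZero N'] in
theorem coe_torsRestrict (f : JZero N →+ JZero N')
    (x : Pic0.torsion ℚbar (modularFunctionFieldBar N) n) :
    (torsRestrict n f x : JZero N') = f x := rfl

variable (N n) in
/-- The Hecke operator on the torsion. -/
def heckeTors (l : Nat.Primes) : Pic0.torsion ℚbar (modularFunctionFieldBar N) n →+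
    Pic0.torsion ℚbar (modularFunctionFieldBar N) n :=
  torsRestrict n (heckeOperatorBar N l).toAddMonoidHom

theorem coe_heckeTors (l : Nat.Primes) (x : Pic0.torsion ℚbar (modularFunctionFieldBar N) n) :
    (heckeTors N n l x : JZero N) = heckeOperatorBar N l x := rfl

attribute [irreducible] heckeTors

/-- An additive map of torsion points commuting with the Hecke operators away from `S`. -/
def TorsIntertwines (S : Set ℕ) (g : Pic0.torsion ℚbar (modularFunctionFieldBar N) n →+
    Pic0.torsion ℚbar (modularFunctionFieldBar N') n) : Prop :=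
  ∀ l : Nat.Primes, (l : ℕ) ∉ S → ∀ x, g (heckeTors N n l x) = heckeTors N' n l (g x)

variable (N n) in
/-- A Galois automorphism on the torsion. -/
def galTors (σ : ℚbar ≃ₐ[ℚ] ℚbar) : Pic0.torsion ℚbar (modularFunctionFieldBar N) n →+
    Pic0.torsion ℚbar (modularFunctionFieldBar N) n :=
  torsRestrict n (DistribSMul.toAddMonoidHom (JZero N) σ)

omit [NeZero N] in
theorem coe_galTors (σ : ℚbar ≃ₐ[ℚ] ℚbar)
    (x : Pic0.torsion ℚbar (modularFunctionFieldBar N) n) :
    (galTors N n σ x : JZero N) = σ • (x : JZero N) := rfl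

attribute [irreducible] galTors

omit [NeZero N] in
theorem galTors_mul (σ τ : ℚbar ≃ₐ[ℚ] ℚbar)
    (x : Pic0.torsion ℚbar (modularFunctionFieldBar N) n) :
    galTors N n (σ * τ) x = galTors N n σ (galTors N n τ x) :=
  Subtype.ext (by rw [coe_galTors, coe_galTors, coe_galTors, mul_smul])

omit [NeZero N] in
theorem galTors_one (x : Pic0.torsion ℚbar (modularFunctionFieldBar N) n) :
    galTors N n 1 x = x :=
  Subtype.ext ((coe_galTors 1 x).trans (one_smul (ℚbar ≃ₐ[ℚ] ℚbar) (x : JZero N)))

theorem torsIntertwines_galTors (S : Set ℕ) (σ : ℚbar ≃ₐ[ℚ] ℚbar) :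
    TorsIntertwines S (galTors N n σ) := fun l _ x =>
  Subtype.ext (by
    rw [coe_galTors, coe_heckeTors, coe_heckeTors, coe_galTors]
    exact (heckeGaloisEquivariant N σ l (x : JZero N)).symm)

end Tors

/-- An additive map of powers of `ZMod n`, by its matrix. -/
theorem map_apply_eq_sum {n : ℕ} [NeZero n] {κ κ' : Type*} [Fintype κ] [DecidableEq κ]
    {B : Type*} [AddCommGroup B] (h : (κ → ZMod n) →+ (κ' → ZMod n)) (ι : ZMod n →+ B)
    (v : κ → ZMod n) (i : κ') : ι (h v i) = ∑ k, (h (Pi.single k 1) i).val • ι (v k) := by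
  have hι : ∀ z : ZMod n, ι z = z.val • ι 1 := fun z => by
    rw [← map_nsmul, nsmul_one, ZMod.natCast_zmod_val]
  conv_lhs => rw [← Finset.univ_sum_single v, map_sum, Finset.sum_apply, map_sum]
  refine Finset.sum_congr rfl fun k _ => ?_
  have hk : (Pi.single k (v k) : κ → ZMod n) = (v k).val • Pi.single k 1 := by
    rw [← Pi.single_smul, nsmul_one, ZMod.natCast_zmod_val]
  rw [hk, map_nsmul, Pi.smul_apply, map_nsmul, hι (h (Pi.single k 1) i), hι (v k), smul_smul,
    smul_smul, mul_comm]

variable {O : Type uO} [CommRing O] {A : Type uA} [AddCommGroup A] [Module O A]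
  {N N' : ℕ} [NeZero N] [NeZero N'] {n : ℕ} [NeZero n]
  {ρ : Representation O (ZMod N)ˣ A} (hρ : ∀ u, ρ u = 1)
  {ρ' : Representation O (ZMod N')ˣ A} (hρ' : ∀ u, ρ' u = 1)
  (S : Set ℕ) (m : Submonoid (HeckePoly O))

/-- The class of a torsion point in localised `H¹`. -/
def torsLoc (ι : ZMod n →+ A) (x : Pic0.torsion ℚbar (modularFunctionFieldBar N) n) (s : m) :
    CohLoc m ρ :=
  LocalizedModule.mk (torsClass hρ ι x) s

/-- The hypotheses under which localised `H¹` is spanned by torsion points. -/
structure TorsSpanned (N n : ℕ) [NeZero N] (A : Type uA) [AddCommGroup A] : Prop where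
  /-- cocycles lift to free modules -/
  liftable : Liftable ℤ N
  /-- some Eisenstein element away from `S` is inverted -/
  eisenstein : ∃ (r : ℕ) (hr : r.Prime), r ∉ S ∧ (r : ZMod N) = 1 ∧
    (haveI : Fact r.Prime := ⟨hr⟩; eisen O r) ∈ m
  /-- the coefficients are killed by `n` -/
  smul_eq_zero : ∀ a : A, n • a = 0

variable {S m}

/-- **Localised `H¹` is spanned by the classes of torsion points.** -/
theorem loc_ext (H : TorsSpanned S m N n A) {B : Type*} [AddCommMonoid B]
    {F G : CohLoc m ρ →+ B}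
    (h : ∀ (ι : ZMod n →+ A) x s, F (torsLoc hρ m ι x s) = G (torsLoc hρ m ι x s)) : F = G := by
  obtain ⟨r, hr, -, hr1, hrm⟩ := H.eisenstein
  have : Fact r.Prime := ⟨hr⟩
  have : NeZero r := ⟨hr.ne_zero⟩
  refine AddMonoidHom.ext fun z => ?_
  induction z using LocalizedModule.induction_on with
  | _ u s =>
    rw [← LocalizedModule.mk_cancel_common_left (⟨_, hrm⟩ : m) s u, Submonoid.smul_def]
    obtain ⟨a, ha⟩ := exists_latClass_eisen hρ H.liftable hr1 u
    simp only [← ha]
    let L : Coh1 ρ →+ CohLoc m ρ := AddMonoidHom.mk'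
      (fun v => LocalizedModule.mk v ((⟨_, hrm⟩ : m) * s)) fun v w => by
        rw [LocalizedModule.mk_add_mk, ← smul_add, ← LocalizedModule.mk_cancel_common_left
          ((⟨_, hrm⟩ : m) * s) ((⟨_, hrm⟩ : m) * s)]
    show F (L (latClass hρ a)) = G (L (latClass hρ a))
    rw [latClass_eq_sum, map_sum, map_sum, map_sum]
    refine Finset.sum_congr rfl fun k _ => ?_
    obtain ⟨ι, x, hx⟩ := exists_torsClass_single (N := N) hρ k (a k) (H.smul_eq_zero (a k))
    rw [hx]
    exact h ι x _

/-- An additive map of torsion points on lattice coordinates, with values in `A`. -/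
def coordAct (g : Pic0.torsion ℚbar (modularFunctionFieldBar N) n →+
    Pic0.torsion ℚbar (modularFunctionFieldBar N') n) :
    (Fin (rk N) → A) →ₗ[O] (Fin (rk N') → A) where
  toFun a i := ∑ k, (torsCoords (g ((torsCoords (N := N)).symm (Pi.single k 1))) i).val • a k
  map_add' a b := funext fun i => by
    simp [smul_add, Finset.sum_add_distrib]
  map_smul' o a := funext fun i => by
    simp only [Pi.smul_apply, RingHom.id_apply, Finset.smul_sum]
    exact Finset.sum_congr rfl fun k _ => smul_comm _ _ _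

variable {g : Pic0.torsion ℚbar (modularFunctionFieldBar N) n →+
    Pic0.torsion ℚbar (modularFunctionFieldBar N') n}

/-- The coordinate map sends the class of `x` to the class of `g x`. -/
theorem latClass_coordAct (ι : ZMod n →+ A)
    (x : Pic0.torsion ℚbar (modularFunctionFieldBar N) n) :
    latClass hρ' (coordAct (O := O) g fun i => ι (torsCoords x i)) = torsClass hρ' ι (g x) := by
  rw [torsClass_eq_latClass]
  refine congrArg (latClass hρ') (funext fun i => ?_)
  have h := map_apply_eq_sum ((torsCoords (N := N') (n := n)).toAddMonoidHom.comp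
    (g.comp (torsCoords (N := N) (n := n)).symm.toAddMonoidHom)) ι (torsCoords x) i
  simp only [AddMonoidHom.comp_apply, AddEquiv.coe_toAddMonoidHom,
    AddEquiv.symm_apply_apply] at h
  exact h.symm

attribute [irreducible] coordAct

/-- The coordinate map commutes with the Hecke operators away from `S`. -/
theorem exists_heckeGen_coordAct (hn : ∀ a : A, n • a = 0) (hg : TorsIntertwines S g)
    (l : Nat.Primes) (hl : (l : ℕ) ∉ S) (a : Fin (rk N) → A) :
    ∃ b, latClass hρ b = heckeGen ρ l (latClass hρ a) ∧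
      latClass hρ' (coordAct (O := O) g b) =
        heckeGen ρ' l (latClass hρ' (coordAct (O := O) g a)) := by
  have : Fact (l : ℕ).Prime := ⟨l.2⟩
  have : NeZero (l : ℕ) := ⟨l.2.ne_zero⟩
  have hsingle : ∀ k, ∃ b, latClass hρ b = heckeGen ρ l (latClass hρ (Pi.single k (a k))) ∧
      latClass hρ' (coordAct (O := O) g b) =
        heckeGen ρ' l (latClass hρ' (coordAct (O := O) g (Pi.single k (a k)))) := by
    intro k
    obtain ⟨ι, x, hx⟩ := exists_torsClass_single (N := N) hρ k (a k) (hn (a k))
    refine ⟨fun i => ι (torsCoords (heckeTors N n l x) i), ?_, ?_⟩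
    · rw [hx, ← torsClass_eq_latClass]
      exact torsClass_heckeBar hρ ι l x _ (coe_heckeTors l x)
    · have hk : (Pi.single k (a k) : Fin (rk N) → A) = fun i => ι (torsCoords x i) :=
        latClass_injective hρ (hx.trans (torsClass_eq_latClass hρ ι x))
      refine (latClass_coordAct hρ' ι (heckeTors N n l x)).trans ?_
      refine (congrArg (fun y => torsClass hρ' ι y) (hg l hl x)).trans ?_
      refine (torsClass_heckeBar hρ' ι l (g x) _ (coe_heckeTors l (g x))).trans ?_
      refine congrArg (fun v => heckeOp ρ' (l : ℕ) v) ?_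
      exact (latClass_coordAct hρ' ι x).symm.trans (congrArg (fun v => latClass hρ' (coordAct (O := O) g v)) hk.symm)
  choose b hb hb' using hsingle
  refine ⟨∑ k, b k, ?_, ?_⟩
  · rw [map_sum, latClass_eq_sum hρ a, map_sum]
    exact Finset.sum_congr rfl fun k _ => hb k
  · conv_rhs => rw [← Finset.univ_sum_single a, map_sum, map_sum, map_sum]
    rw [map_sum, map_sum]
    exact Finset.sum_congr rfl fun k _ => hb' k

/-- Lattice coordinates after an Eisenstein element. -/
theorem exists_eisenCoords (hN : Liftable ℤ N) {r : ℕ} [Fact r.Prime] [NeZero r]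
    (hr1 : (r : ZMod N) = 1) :
    ∃ pre : Coh1 ρ →ₗ[O] (Fin (rk N) → A), ∀ u, latClass hρ (pre u) = eisen O r • u := by
  let eL : Coh1 ρ →ₗ[O] Coh1 ρ := heckeOp ρ r - ((r : O) + 1) • LinearMap.id
  have heL : ∀ u, eL u = eisen O r • u := fun u => by
    rw [eisen_smul]; rfl
  refine ⟨(LinearEquiv.ofInjective (latClass hρ) (latClass_injective hρ)).symm.toLinearMap.comp
    (eL.codRestrict (LinearMap.range (latClass hρ)) fun u => by
      obtain ⟨a, ha⟩ := exists_latClass_eisen hρ hN hr1 u
      exact ⟨a, ha.trans (heL u).symm⟩), fun u => ?_⟩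
  rw [← heL]
  exact congrArg Subtype.val ((LinearEquiv.ofInjective (latClass hρ)
    (latClass_injective hρ)).apply_symm_apply _)

/-- An additive map of torsion points acts on localised `H¹`. -/
theorem exists_transfer (H : TorsSpanned S m N n A) (hm : IsAway S m)
    (hg : TorsIntertwines S g) :
    ∃ F : CohLoc m ρ →ₗ[O] CohLoc m ρ',
      (∀ ι x s, F (torsLoc hρ m ι x s) = torsLoc hρ' m ι (g x) s) ∧
      ∀ (a : AwayPoly O S) z, F (awayIncl O S a • z) = awayIncl O S a • F z := by
  obtain ⟨r, hr, hrS, hr1, hrm⟩ := H.eisenstein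
  have : Fact r.Prime := ⟨hr⟩
  have : NeZero r := ⟨hr.ne_zero⟩
  obtain ⟨pre, hpre⟩ := exists_eisenCoords hρ H.liftable hr1
  let F : Coh1 ρ →ₗ[O] Coh1 ρ' := ((latClass hρ').comp (coordAct (O := O) g)).comp pre
  have hF : ∀ (ℓ : ℕ) [Fact ℓ.Prime], ℓ ∉ S → ∀ u, F (heckeOp ρ ℓ u) = heckeOp ρ' ℓ (F u) := by
    intro ℓ hℓ hℓS u
    obtain ⟨b, hb, hb'⟩ :=
      exists_heckeGen_coordAct hρ hρ' H.smul_eq_zero hg ⟨ℓ, hℓ.out⟩ hℓS (pre u)
    have e : pre (heckeOp ρ ℓ u) = b := latClass_injective hρ (by
      rw [hb, hpre, hpre]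
      show eisen O r • heckeOp ρ ℓ u = heckeOp ρ ℓ (eisen O r • u)
      rw [← X_smul ρ ℓ u, ← X_smul ρ ℓ (eisen O r • u), smul_comm])
    show latClass hρ' (coordAct g (pre (heckeOp ρ ℓ u))) = _
    rw [e, hb']
    rfl
  have hFt : ∀ ι x, F (torsClass hρ ι x) = eisen O r • torsClass hρ' ι (g x) := by
    intro ι x
    obtain ⟨b, hb, hb'⟩ := exists_heckeGen_coordAct hρ hρ' H.smul_eq_zero hg ⟨r, hr⟩ hrS
      (fun i => ι (torsCoords x i))
    have e : pre (torsClass hρ ι x) = b - ((r : O) + 1) • fun i => ι (torsCoords x i) := by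
      refine latClass_injective hρ ?_
      rw [hpre, map_sub, map_smul, hb, ← torsClass_eq_latClass, eisen_smul]
      rfl
    refine Eq.trans (congrArg ((latClass hρ').comp (coordAct (O := O) g)) e) ?_
    refine (map_sub ((latClass hρ').comp (coordAct (O := O) g)) _ _).trans ?_
    refine (congrArg₂ (fun u v => u - v) hb' ((map_smul ((latClass hρ').comp (coordAct (O := O) g))
      ((r : O) + 1) _).trans (congrArg (fun v => ((r : O) + 1) • v)
        (latClass_coordAct hρ' ι x)))).trans ?_
    refine Eq.trans (congrArg (fun w => heckeOp ρ' r w - ((r : O) + 1) • torsClass hρ' ι (g x))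
      (latClass_coordAct hρ' ι x)) (eisen_smul (O := O) (ρA := ρ') _).symm
  -- invert the Eisenstein element
  let E : CohLoc m ρ' ≃ₗ[HeckePoly O] CohLoc m ρ' :=
    LinearEquiv.ofBijective (algebraMap (HeckePoly O) (Module.End (HeckePoly O) (CohLoc m ρ'))
      (eisen O r)) ((Module.End.isUnit_iff _).mp (IsLocalizedModule.map_units
        (LocalizedModule.mkLinearMap m (Coh1 ρ')) ⟨_, hrm⟩))
  have hE : ∀ z, E z = eisen O r • z := fun z => rfl
  refine ⟨(E.symm.toLinearMap.restrictScalars O).comp (locLift m F (hm.commute F hF)),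
    fun ι x s => ?_, fun a z => ?_⟩
  · show E.symm (locLift m F _ (LocalizedModule.mk _ s)) = _
    rw [LinearEquiv.symm_apply_eq, hE, locLift_mk, hFt, torsLoc, LocalizedModule.smul'_mk]
  · show E.symm (locLift m F _ _) = _
    rw [locLift_smul _ _ _ (map_awayIncl_smul F hF a), map_smul]
    rfl

variable (H : TorsSpanned S m N n A) (hm : IsAway S m) (hg : TorsIntertwines S g)

/-- The map of localised `H¹` attached to a map of torsion points. -/
def transfer : CohLoc m ρ →ₗ[O] CohLoc m ρ' := (exists_transfer hρ hρ' H hm hg).choose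

theorem transfer_torsLoc (ι : ZMod n →+ A)
    (x : Pic0.torsion ℚbar (modularFunctionFieldBar N) n) (s : m) :
    transfer hρ hρ' H hm hg (torsLoc hρ m ι x s) = torsLoc hρ' m ι (g x) s :=
  (exists_transfer hρ hρ' H hm hg).choose_spec.1 ι x s

theorem transfer_smul (a : AwayPoly O S) (z : CohLoc m ρ) :
    transfer hρ hρ' H hm hg (awayIncl O S a • z) = awayIncl O S a • transfer hρ hρ' H hm hg z :=
  (exists_transfer hρ hρ' H hm hg).choose_spec.2 a z

section Galois

/-- The Galois action on localised `H¹`. -/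
def galLoc (σ : ℚbar ≃ₐ[ℚ] ℚbar) : Module.End O (CohLoc m ρ) :=
  transfer hρ hρ H hm (torsIntertwines_galTors S σ)

theorem galLoc_torsLoc (σ : ℚbar ≃ₐ[ℚ] ℚbar) (ι : ZMod n →+ A)
    (x : Pic0.torsion ℚbar (modularFunctionFieldBar N) n) (s : m) :
    galLoc hρ H hm σ (torsLoc hρ m ι x s) = torsLoc hρ m ι (galTors N n σ x) s :=
  transfer_torsLoc ..

/-- The Galois representation on localised `H¹`. -/
def galLocHom : (ℚbar ≃ₐ[ℚ] ℚbar) →* Module.End O (CohLoc m ρ) where
  toFun := galLoc hρ H hm
  map_one' := LinearMap.toAddMonoidHom_injective (loc_ext hρ H fun ι x s => by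
    show galLoc hρ H hm 1 _ = _
    rw [galLoc_torsLoc, galTors_one]
    rfl)
  map_mul' σ τ := LinearMap.toAddMonoidHom_injective (loc_ext hρ H fun ι x s => by
    show galLoc hρ H hm (σ * τ) _ = galLoc hρ H hm σ (galLoc hρ H hm τ _)
    rw [galLoc_torsLoc, galLoc_torsLoc, galLoc_torsLoc, galTors_mul])

theorem galLoc_smul (σ : ℚbar ≃ₐ[ℚ] ℚbar) (a : AwayPoly O S) (z : CohLoc m ρ) :
    galLoc hρ H hm σ (awayIncl O S a • z) = awayIncl O S a • galLoc hρ H hm σ z :=
  transfer_smul ..

end Galois

end Fermat.Agent.TwoAdic.Bridge
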