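import Fermat.Agent.TwoAdic.Geometry.Bridge.Transfer

/-!
# Maps defined on a subgroup of torsion points

A map defined on a subgroup of the torsion points and commuting with the Hecke operators away from
`S` acts on the part of localised `H¹` that the subgroup spans, for coefficients free over `ZMod
n`: classes are tuples of torsion points, one for each vector of a basis.
-/

set_option autoImplicit false
set_option linter.unusedSectionVars false

noncomputable section

open Matrix.SpecialLinearGroup CongruenceSubgroup
open scoped MatrixGroups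
open AlgebraicCurve ModularCurve
open scoped Fermat.Agent.TwoAdic.Geometry

universe uO uA uκ

namespace Fermat.Agent.TwoAdic.Bridge

open HeckeJ0 HeckeModule EigenSystems

local notation "ℚbar" => AlgebraicClosure ℚ

section Coordinates

variable {O : Type uO} [CommRing O] {A : Type uA} [AddCommGroup A] [Module O A]
  {N N' : ℕ} [NeZero N] [NeZero N'] {n : ℕ} [NeZero n] {κ : Type uκ} (e : A ≃+ (κ → ZMod n))

local notation "Jn" => Pic0.torsion ℚbar (modularFunctionFieldBar N) n
local notation "Jn'" => Pic0.torsion ℚbar (modularFunctionFieldBar N') n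

/-- Coordinates in `A` as tuples of torsion points. -/
def pointTuple : (Fin (rk N) → A) ≃+ (κ → Jn) where
  toFun a j := (torsCoords (N := N) (n := n)).symm fun k => e (a k) j
  invFun x k := e.symm fun j => torsCoords (x j) k
  left_inv a := funext fun k => by
    simp only [AddEquiv.apply_symm_apply]
    exact e.symm_apply_apply (a k)
  right_inv x := funext fun j => by
    simp only [AddEquiv.apply_symm_apply]
    exact (torsCoords (N := N) (n := n)).symm_apply_apply (x j)
  map_add' a b := funext fun j => by
    simp only [Pi.add_apply, map_add]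
    rw [← map_add]
    rfl

theorem pointTuple_apply (a : Fin (rk N) → A) (j : κ) :
    pointTuple e a j = (torsCoords (N := N) (n := n)).symm fun k => e (a k) j := rfl

include e in
theorem nsmul_eq_zero_of_basis (a : A) : n • a = 0 :=
  e.injective (by rw [map_nsmul, map_zero]; funext j; simp)

/-- An endomorphism of the coefficients mixes the points of a tuple. -/
theorem pointTuple_map [Fintype κ] [DecidableEq κ] (L : A →+ A) (a : Fin (rk N) → A) (j : κ) :
    pointTuple e (fun k => L (a k)) j =
      ∑ i, (e (L (e.symm (Pi.single i 1))) j).val • pointTuple e a i := by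
  refine (torsCoords (N := N) (n := n)).injective ?_
  rw [pointTuple_apply, AddEquiv.apply_symm_apply, map_sum]
  funext k
  rw [Finset.sum_apply]
  have h := map_apply_eq_sum (e.toAddMonoidHom.comp (L.comp e.symm.toAddMonoidHom))
    (AddMonoidHom.id (ZMod n)) (e (a k)) j
  simp only [AddMonoidHom.comp_apply, AddEquiv.coe_toAddMonoidHom, AddEquiv.symm_apply_apply,
    AddMonoidHom.id_apply] at h
  rw [h]
  refine Finset.sum_congr rfl fun i _ => ?_
  rw [map_nsmul, Pi.smul_apply, pointTuple_apply, AddEquiv.apply_symm_apply]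

/-- The coordinate map of `g` applies `g` to each point of the tuple. -/
theorem pointTuple_coordAct (g : Jn →+ Jn') (a : Fin (rk N) → A) (j : κ) :
    pointTuple e (coordAct (O := O) g a) j = g (pointTuple e a j) := by
  have key : (fun i => e (coordAct (O := O) g a i) j) =
      torsCoords (g (pointTuple e a j)) := funext fun i => by
    have h := map_apply_eq_sum ((torsCoords (N := N') (n := n)).toAddMonoidHom.comp
      (g.comp (torsCoords (N := N) (n := n)).symm.toAddMonoidHom))
      (AddMonoidHom.id (ZMod n)) (fun k => e (a k) j) i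
    simp only [AddMonoidHom.comp_apply, AddEquiv.coe_toAddMonoidHom, AddMonoidHom.id_apply] at h
    rw [pointTuple_apply, h]
    unfold coordAct
    simp only [LinearMap.coe_mk, AddHom.coe_mk, map_sum, Finset.sum_apply, map_nsmul,
      Pi.smul_apply]
  rw [pointTuple_apply, key]
  exact (torsCoords (N := N') (n := n)).symm_apply_apply _

/-- A scalar mixes the points of a tuple. -/
theorem pointTuple_smul [Fintype κ] [DecidableEq κ] (o : O) (a : Fin (rk N) → A) (j : κ) :
    pointTuple e (o • a) j =
      ∑ i, (e (o • e.symm (Pi.single i 1)) j).val • pointTuple e a i :=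
  pointTuple_map e (DistribSMul.toAddMonoidHom A o) a j

attribute [irreducible] pointTuple

/-- Coordinates all whose points lie in a subgroup. -/
def subLift [Fintype κ] (H : AddSubgroup Jn) : Submodule O (Fin (rk N) → A) where
  carrier := {a | ∀ j, pointTuple e a j ∈ H}
  zero_mem' j := by rw [map_zero]; exact zero_mem H
  add_mem' ha hb j := by rw [map_add]; exact add_mem (ha j) (hb j)
  smul_mem' o a ha j := by
    classical
    rw [pointTuple_smul]
    exact sum_mem fun i _ => nsmul_mem (ha i) _

theorem mem_subLift [Fintype κ] {H : AddSubgroup Jn} {a : Fin (rk N) → A} :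
    a ∈ subLift (O := O) e H ↔ ∀ j, pointTuple e a j ∈ H := Iff.rfl

/-- The points of coordinates in a subgroup. -/
def subPoint [Fintype κ] {H : AddSubgroup Jn} (v : subLift (O := O) e H) (j : κ) : H :=
  ⟨pointTuple e v.1 j, v.2 j⟩

theorem coe_subPoint [Fintype κ] {H : AddSubgroup Jn} (v : subLift (O := O) e H) (j : κ) :
    (subPoint e v j : Jn) = pointTuple e v.1 j := rfl

theorem subPoint_add [Fintype κ] {H : AddSubgroup Jn} (v w : subLift (O := O) e H) (j : κ) :
    subPoint e (v + w) j = subPoint e v j + subPoint e w j :=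
  Subtype.ext (congrFun (map_add (pointTuple e) v.1 w.1) j)

theorem subPoint_smul [Fintype κ] [DecidableEq κ] {H : AddSubgroup Jn} (o : O)
    (v : subLift (O := O) e H) (j : κ) :
    subPoint e (o • v) j = ∑ i, (e (o • e.symm (Pi.single i 1))  j).val • subPoint e v i :=
  Subtype.ext (by
    rw [coe_subPoint, AddSubgroup.val_finsetSum, Submodule.coe_smul, pointTuple_smul]
    exact Finset.sum_congr rfl fun i _ => rfl)

attribute [irreducible] subPoint

theorem pointTuple_symm_apply (x : κ → Jn') :
    pointTuple (N := N') e ((pointTuple (N := N') e).symm x) = x :=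
  (pointTuple (N := N') e).apply_symm_apply x

/-- The tuple of images. -/
def subImage [Fintype κ] {H : AddSubgroup Jn} (f : H →+ Jn') (v : subLift (O := O) e H) :
    κ → Jn' := fun j => f (subPoint e v j)

theorem subImage_add [Fintype κ] {H : AddSubgroup Jn} (f : H →+ Jn')
    (v w : subLift (O := O) e H) : subImage e f (v + w) = subImage e f v + subImage e f w :=
  funext fun j => by rw [Pi.add_apply, subImage, subPoint_add]; exact f.map_add _ _

theorem subImage_smul [Fintype κ] [DecidableEq κ] {H : AddSubgroup Jn} (f : H →+ Jn') (o : O)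
    (v : subLift (O := O) e H) (j : κ) : subImage e f (o • v) j =
      ∑ i, (e (o • e.symm (Pi.single i 1)) j).val • subImage e f v i := by
  rw [subImage, subPoint_smul]
  exact (_root_.map_sum f _ _).trans (Finset.sum_congr rfl fun i _ => f.map_nsmul _ _)

/-- The map on coordinates of a map of the subgroup. -/
def liftHom [Fintype κ] {H : AddSubgroup Jn} (f : H →+ Jn') :
    subLift (O := O) e H →ₗ[O] (Fin (rk N') → A) where
  toFun v := (pointTuple (N := N') e).symm (subImage e f v)
  map_add' v w := (congrArg _ (subImage_add e f v w)).trans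
    ((pointTuple (N := N') e).symm.map_add _ _)
  map_smul' o v := by
    classical
    apply (pointTuple (N := N') e).injective
    rw [pointTuple_symm_apply, RingHom.id_apply]
    funext j
    rw [pointTuple_smul, pointTuple_symm_apply, subImage_smul]

theorem pointTuple_liftHom [Fintype κ] {H : AddSubgroup Jn} (f : H →+ Jn')
    (v : subLift (O := O) e H) (j : κ) :
    pointTuple e (liftHom e f v) j = f (subPoint e v j) := by
  show pointTuple (N := N') e ((pointTuple (N := N') e).symm _) j = _
  rw [pointTuple_symm_apply]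
  rfl

end Coordinates

section Localised

variable {O : Type uO} [CommRing O] {A : Type uA} [AddCommGroup A] [Module O A]
  {N N' : ℕ} [NeZero N] [NeZero N'] {n : ℕ} [NeZero n] {κ : Type uκ} [Fintype κ]
  (e : A ≃+ (κ → ZMod n))
  {ρ : Representation O (ZMod N)ˣ A} (hρ : ∀ u, ρ u = 1)
  {ρ' : Representation O (ZMod N')ˣ A} (hρ' : ∀ u, ρ' u = 1)
  {S : Set ℕ} {m : Submonoid (HeckePoly O)} (hm : IsAway S m)

local notation "Jn" => Pic0.torsion ℚbar (modularFunctionFieldBar N) n
local notation "Jn'" => Pic0.torsion ℚbar (modularFunctionFieldBar N') n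

/-- A localised class with given coordinates. -/
def latLoc (a : Fin (rk N) → A) (s : m) : CohLoc m ρ := LocalizedModule.mk (latClass hρ a) s

include e in
/-- The Hecke operator on coordinates. -/
theorem heckeGen_latClass (l : Nat.Primes) (a : Fin (rk N) → A) :
    heckeGen ρ l (latClass hρ a) =
      latClass hρ (coordAct (O := O) (heckeTors N n l) a) := by
  have : Fact (l : ℕ).Prime := ⟨l.2⟩
  have : NeZero (l : ℕ) := ⟨l.2.ne_zero⟩
  have hs : ∀ k, heckeGen ρ l (latClass hρ (Pi.single k (a k))) =
      latClass hρ (coordAct (O := O) (heckeTors N n l) (Pi.single k (a k))) := fun k => by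
    obtain ⟨ι, x, hx⟩ := exists_torsClass_single (N := N) hρ k (a k) (nsmul_eq_zero_of_basis e _)
    have hk : (Pi.single k (a k) : Fin (rk N) → A) = fun i => ι (torsCoords x i) :=
      latClass_injective hρ (hx.trans (torsClass_eq_latClass hρ ι x))
    rw [hx, hk, latClass_coordAct hρ ι x]
    exact (torsClass_heckeBar hρ ι l x _ (coe_heckeTors l x)).symm
  conv_rhs => rw [← Finset.univ_sum_single a, map_sum, map_sum]
  rw [latClass_eq_sum, map_sum]
  exact Finset.sum_congr rfl fun k _ => hs k

/-- A map of a subgroup commuting with the Hecke operators away from `S`. -/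
def SubIntertwines (S : Set ℕ) {H : AddSubgroup Jn} (f : H →+ Jn') : Prop :=
  ∀ l : Nat.Primes, (l : ℕ) ∉ S → ∀ x : H,
    ∃ h : heckeTors N n l x.1 ∈ H, f ⟨_, h⟩ = heckeTors N' n l (f x)

variable {H : AddSubgroup (Pic0.torsion ℚbar (modularFunctionFieldBar N) n)}
  {f : H →+ Pic0.torsion ℚbar (modularFunctionFieldBar N') n}

include hm in
/-- Elements of the monoid act on the coordinates in a subgroup, compatibly with `f`. -/
theorem exists_away_subLift (hf : SubIntertwines S f) (a : AwayPoly O S)
    (v : subLift (O := O) e H) : ∃ w : subLift (O := O) e H,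
      latClass hρ w.1 = awayIncl O S a • latClass hρ v.1 ∧
      latClass hρ' (liftHom e f w) = awayIncl O S a • latClass hρ' (liftHom e f v) := by
  induction a using MvPolynomial.induction_on generalizing v with
  | C r =>
    refine ⟨r • v, ?_, ?_⟩
    · rw [← MvPolynomial.algebraMap_eq, AlgHom.commutes, algebraMap_smul, Submodule.coe_smul,
        map_smul]
    · rw [← MvPolynomial.algebraMap_eq, AlgHom.commutes, algebraMap_smul, map_smul, map_smul]
  | add P Q hP hQ =>
    obtain ⟨w, h1, h2⟩ := hP v
    obtain ⟨w', h1', h2'⟩ := hQ v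
    refine ⟨w + w', ?_, ?_⟩
    · rw [map_add (awayIncl O S), add_smul, ← h1, ← h1', Submodule.coe_add, map_add]
    · rw [map_add (awayIncl O S), add_smul, ← h2, ← h2', map_add, map_add]
  | mul_X P l hP =>
    have : Fact (l.1 : ℕ).Prime := ⟨l.1.2⟩
    have hw : coordAct (O := O) (heckeTors N n l.1) v.1 ∈ subLift (O := O) e H := fun j => by
      rw [pointTuple_coordAct]
      exact (hf l.1 l.2 ⟨_, v.2 j⟩).1
    obtain ⟨w, h1, h2⟩ := hP ⟨_, hw⟩
    refine ⟨w, ?_, ?_⟩
    · rw [h1, map_mul, mul_smul, awayIncl_X]
      exact congrArg _ ((heckeGen_latClass e hρ l.1 v.1).symm.trans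
        (X_smul ρ (l.1 : ℕ) _).symm)
    · rw [h2, map_mul, mul_smul, awayIncl_X]
      refine congrArg _ (Eq.trans ?_ ((heckeGen_latClass e hρ' l.1 (liftHom e f v)).symm.trans
        (X_smul ρ' (l.1 : ℕ) _).symm))
      refine congrArg (latClass hρ') ?_
      apply (pointTuple (N := N') e).injective
      funext j
      obtain ⟨hmem, heq⟩ := hf l.1 l.2 (subPoint e v j)
      refine (pointTuple_liftHom e f _ j).trans ?_
      refine Eq.trans ?_ ((pointTuple_coordAct e (heckeTors N' n l.1) _ j).trans
        (congrArg (fun y => heckeTors N' n l.1 y) (pointTuple_liftHom e f v j))).symm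
      refine (congrArg f (Subtype.ext ?_)).trans heq
      exact (coe_subPoint e _ j).trans ((pointTuple_coordAct e _ v.1 j).trans
        (congrArg (fun y => heckeTors N n l.1 y) (coe_subPoint e v j).symm))

include hm in
/-- Elements of the monoid act on the coordinates in a subgroup. -/
theorem exists_mem_subLift (hf : SubIntertwines S f) (t : m) (v : subLift (O := O) e H) :
    ∃ w : subLift (O := O) e H, latClass hρ w.1 = (t : HeckePoly O) • latClass hρ v.1 ∧
      latClass hρ' (liftHom e f w) = (t : HeckePoly O) • latClass hρ' (liftHom e f v) := by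
  obtain ⟨a, ha⟩ := hm t t.2
  rw [← ha]
  exact exists_away_subLift e hρ hρ' hm hf a v

include hm in
/-- The localised map is well defined. -/
theorem latLoc_liftHom_congr (hf : SubIntertwines S f) {v v' : subLift (O := O) e H} {s s' : m}
    (h : latLoc hρ v.1 s = latLoc hρ v'.1 s') :
    latLoc hρ' (liftHom e f v) s = latLoc hρ' (liftHom e f v') s' := by
  rw [latLoc, latLoc, LocalizedModule.mk_eq] at h
  obtain ⟨t, ht⟩ := h
  simp only [Submonoid.smul_def, ← mul_smul] at ht
  obtain ⟨w, h1, h2⟩ := exists_mem_subLift e hρ hρ' hm hf (t * s') v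
  obtain ⟨w', h1', h2'⟩ := exists_mem_subLift e hρ hρ' hm hf (t * s) v'
  obtain rfl : w = w' := Subtype.ext (latClass_injective hρ (by
    rw [h1, h1', Submonoid.coe_mul, Submonoid.coe_mul]; exact ht))
  rw [latLoc, latLoc, LocalizedModule.mk_eq]
  refine ⟨t, ?_⟩
  simp only [Submonoid.smul_def, ← mul_smul]
  rw [← Submonoid.coe_mul, ← Submonoid.coe_mul, ← h2, ← h2']

/-- The part of localised `H¹` spanned by a subgroup. -/
def locPart (hf : SubIntertwines S f) : AddSubgroup (CohLoc m ρ) where
  carrier := {z | ∃ (v : subLift (O := O) e H) (s : m), z = latLoc hρ v.1 s}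
  zero_mem' := ⟨0, 1, by rw [latLoc, Submodule.coe_zero, map_zero, LocalizedModule.zero_mk]⟩
  add_mem' := by
    rintro _ _ ⟨v, s, rfl⟩ ⟨v', s', rfl⟩
    obtain ⟨w, h1, -⟩ := exists_mem_subLift e hρ hρ' hm hf s' v
    obtain ⟨w', h1', -⟩ := exists_mem_subLift e hρ hρ' hm hf s v'
    refine ⟨w + w', s * s', ?_⟩
    rw [latLoc, latLoc, latLoc, LocalizedModule.mk_add_mk, Submodule.coe_add, map_add, h1, h1']
    rfl
  neg_mem' := by
    rintro _ ⟨v, s, rfl⟩
    refine ⟨-v, s, ?_⟩
    rw [latLoc, latLoc, Submodule.coe_neg, map_neg, LocalizedModule.mk_neg]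

variable (hf : SubIntertwines S f)

theorem latLoc_mem_locPart (v : subLift (O := O) e H) (s : m) :
    latLoc hρ v.1 s ∈ locPart e hρ hρ' hm hf := ⟨v, s, rfl⟩

/-- The map of localised `H¹` on the part spanned by a subgroup. -/
def locPartMap : locPart e hρ hρ' hm hf →+ CohLoc m ρ' :=
  AddMonoidHom.mk' (fun z => latLoc hρ' (liftHom e f z.2.choose) z.2.choose_spec.choose)
    fun z z' => by
      obtain ⟨w, h1, h2⟩ :=
        exists_mem_subLift e hρ hρ' hm hf z'.2.choose_spec.choose z.2.choose
      obtain ⟨w', h1', h2'⟩ :=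
        exists_mem_subLift e hρ hρ' hm hf z.2.choose_spec.choose z'.2.choose
      refine (latLoc_liftHom_congr e hρ hρ' hm hf (v' := w + w')
        (s' := z.2.choose_spec.choose * z'.2.choose_spec.choose)
        ((z + z').2.choose_spec.choose_spec.symm.trans ?_)).trans ?_
      · refine (congrArg₂ (· + ·) z.2.choose_spec.choose_spec
          z'.2.choose_spec.choose_spec).trans ?_
        rw [latLoc, latLoc, latLoc, LocalizedModule.mk_add_mk, Submodule.coe_add, map_add, h1, h1']
        rfl
      · rw [latLoc, latLoc, latLoc, LocalizedModule.mk_add_mk, map_add, map_add, h2, h2']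
        rfl

theorem locPartMap_apply (v : subLift (O := O) e H) (s : m)
    (z : locPart e hρ hρ' hm hf) (hz : (z : CohLoc m ρ) = latLoc hρ v.1 s) :
    locPartMap e hρ hρ' hm hf z = latLoc hρ' (liftHom e f v) s :=
  latLoc_liftHom_congr e hρ hρ' hm hf (z.2.choose_spec.choose_spec.symm.trans hz)

include e in
/-- An additive map following `g` on torsion points follows its coordinate map. -/
theorem map_latLoc {g : Jn →+ Jn'} {G : CohLoc m ρ →+ CohLoc m ρ'}
    (hG : ∀ ι x s, G (torsLoc hρ m ι x s) = torsLoc hρ' m ι (g x) s)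
    (a : Fin (rk N) → A) (s : m) :
    G (latLoc hρ a s) = latLoc hρ' (coordAct (O := O) g a) s := by
  let L : Coh1 ρ →+ CohLoc m ρ := AddMonoidHom.mk' (fun v => LocalizedModule.mk v s) fun v w => by
    rw [LocalizedModule.mk_add_mk, ← smul_add, ← LocalizedModule.mk_cancel_common_left s s]
  let L' : Coh1 ρ' →+ CohLoc m ρ' := AddMonoidHom.mk' (fun v => LocalizedModule.mk v s)
    fun v w => by
      rw [LocalizedModule.mk_add_mk, ← smul_add, ← LocalizedModule.mk_cancel_common_left s s]
  show G (L (latClass hρ a)) = L' (latClass hρ' (coordAct (O := O) g a))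
  conv_rhs => rw [← Finset.univ_sum_single a, map_sum, map_sum, map_sum]
  rw [latClass_eq_sum, map_sum, map_sum]
  refine Finset.sum_congr rfl fun k _ => ?_
  obtain ⟨ι, x, hx⟩ := exists_torsClass_single (N := N) hρ k (a k) (nsmul_eq_zero_of_basis e _)
  have hk : (Pi.single k (a k) : Fin (rk N) → A) = fun i => ι (torsCoords x i) :=
    latClass_injective hρ (hx.trans (torsClass_eq_latClass hρ ι x))
  rw [hx, hk, latClass_coordAct hρ' ι x]
  exact hG ι x s

/-- Every localised class has coordinates. -/
theorem exists_latLoc (Hs : TorsSpanned S m N n A) (z : CohLoc m ρ) :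
    ∃ (a : Fin (rk N) → A) (s : m), z = latLoc hρ a s := by
  obtain ⟨r, hr, -, hr1, hrm⟩ := Hs.eisenstein
  have : Fact r.Prime := ⟨hr⟩
  have : NeZero r := ⟨hr.ne_zero⟩
  induction z using LocalizedModule.induction_on with
  | _ u s =>
    obtain ⟨a, ha⟩ := exists_latClass_eisen hρ Hs.liftable hr1 u
    refine ⟨a, ⟨_, hrm⟩ * s, ?_⟩
    rw [latLoc, ha, ← LocalizedModule.mk_cancel_common_left (⟨_, hrm⟩ : m) s u, Submonoid.smul_def]

end Localised

end Fermat.Agent.TwoAdic.Bridge
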